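import Fermat.Agent.CFT.Tangent.Derivation

/-!
# Coordinates: a presentation with prescribed images of some of the variables

`exists_coord_surjective`: a complete local algebra is a quotient of power series in given
coordinates and `g` more, if the derivations killing the given ones (`killedDer`) form a space of
dimension at most `g`. It is used for the patching levels here and in `RT/Lifting`.
-/

set_option autoImplicit false

noncomputable section

namespace Fermat.Agent.RT.Assembly

open IsLocalRing MvPowerSeries Fermat.Agent.Deform Fermat.Agent.CFT.Tangent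

variable {O : Type} [CommRing O]
variable {R : Type} [CommRing R] [IsLocalRing R] [IsNoetherianRing R]
  [IsAdicComplete (maximalIdeal R) R] [Algebra O R]

omit [IsNoetherianRing R] in
/-- Power series are evaluated at elements of the maximal ideal. -/
theorem exists_evalHom {σ : Type} [Finite σ] (s : σ → R) (hs : ∀ i, s i ∈ maximalIdeal R) :
    ∃ γ : MvPowerSeries σ O →ₐ[O] R, ∀ i, γ (X i) = s i := by
  classical
  set J := MvPolynomial.idealOfVars σ O
  let φ : MvPolynomial σ O →ₐ[O] R := MvPolynomial.aeval s
  have hJ : ∀ n, J ^ n ≤ (maximalIdeal R ^ n).comap φ := fun n => by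
    refine le_trans (Ideal.pow_right_mono ?_ n) ?_ (b := (maximalIdeal R).comap φ ^ n)
    · rw [show J = Ideal.span (Set.range MvPolynomial.X) from rfl, Ideal.span_le]
      rintro _ ⟨i, rfl⟩
      show φ (MvPolynomial.X i) ∈ maximalIdeal R
      rw [MvPolynomial.aeval_X]
      exact hs i
    · exact Ideal.le_comap_pow _ n
  let f : (n : ℕ) → MvPowerSeries σ O →ₐ[O] R ⧸ maximalIdeal R ^ n := fun n =>
    (Ideal.quotientMapₐ (maximalIdeal R ^ n) φ (hJ n)).comp
      ((truncTotalAlgHom σ O n).restrictScalars O)
  have hf : ∀ {m n : ℕ} (hle : m ≤ n),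
      (Ideal.Quotient.factorₐ O (Ideal.pow_le_pow_right hle)).comp (f n) = f m :=
        fun {m n} hle => by
    refine AlgHom.ext fun p => Ideal.Quotient.eq.mpr ?_
    show φ (truncTotal n p) - φ (truncTotal m p) ∈ _
    rw [← map_sub]
    exact hJ m (truncTotal_sub_truncTotal_mem_pow_idealOfVars hle le_rfl p)
  let γ := IsAdicComplete.liftAlgHom (maximalIdeal R) f hf
  have hγ : ∀ p : MvPolynomial σ O, γ (p : MvPowerSeries σ O) = φ p := fun p => by
    refine sub_eq_zero.mp (IsHausdorff.haus' (I := maximalIdeal R) _ fun n => ?_)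
    rw [SModEq.zero, smul_eq_mul, Ideal.mul_top, ← Ideal.Quotient.eq_zero_iff_mem, map_sub,
      IsAdicComplete.mk_liftAlgHom, sub_eq_zero]
    show Ideal.Quotient.mk _ (φ (truncTotal n (p : MvPowerSeries σ O))) = _
    refine Ideal.Quotient.eq.mpr ?_
    rw [← map_sub]
    refine hJ n ((MvPolynomial.mem_pow_idealOfVars_iff' ..).mpr fun d hd => ?_)
    rw [MvPolynomial.coeff_sub, coeff_truncTotal _ hd, MvPolynomial.coeff_coe, sub_self]
  exact ⟨γ, fun i => by rw [← MvPolynomial.coe_X, hγ, MvPolynomial.aeval_X]⟩

variable [IsLocalRing O] [IsAdicComplete (maximalIdeal O) O]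

omit [IsAdicComplete (maximalIdeal R) R] in
/-- An evaluation is onto when its values generate the relative cotangent space. -/
theorem surjective_evalHom [IsLocalHom (algebraMap O R)]
    (hres : Function.Surjective (residue R ∘ algebraMap O R)) {σ : Type} [Finite σ]
    (γ : MvPowerSeries σ O →ₐ[O] R) {s : σ → R} (hγ : ∀ i, γ (X i) = s i)
    (hs : ∀ i, s i ∈ maximalIdeal R)
    (hgen : maximalIdeal R ≤ Ideal.span (Set.range s) ⊔ (maximalIdeal O).map (algebraMap O R)) :
    Function.Surjective γ := by
  have := Fintype.ofFinite σ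
  set X' : Ideal (MvPowerSeries σ O) := Ideal.span (Set.range X)
  have hmap : X'.map (γ : MvPowerSeries σ O →+* R) = Ideal.span (Set.range s) := by
    rw [Ideal.map_span, ← Set.range_comp]
    exact congrArg _ (congrArg Set.range (funext hγ))
  have : IsHausdorff (X'.map (γ : MvPowerSeries σ O →+* R)) R := by
    rw [hmap]
    exact IsHausdorff.of_isLocalRing _ _ fun h => (maximalIdeal.isMaximal R).ne_top
      (top_le_iff.mp (h ▸ Ideal.span_le.mpr (Set.range_subset_iff.mpr hs)))
  refine surjective_of_mk_map_comp_surjective (γ : MvPowerSeries σ O →+* R) (I := X') ?_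
  intro z
  obtain ⟨x, rfl⟩ := Ideal.Quotient.mk_surjective z
  have hrange : Set.range (s ∘ (Fintype.equivFin σ).symm) = Set.range s :=
    (Fintype.equivFin σ).symm.surjective.range_comp s
  obtain ⟨a, ha⟩ := exists_sub_mem_span hres (s ∘ (Fintype.equivFin σ).symm) (fun i => hs _)
    (by rw [hrange]; exact hgen) x
  rw [hrange] at ha
  refine ⟨algebraMap O (MvPowerSeries σ O) a, Ideal.Quotient.eq.mpr ?_⟩
  show γ _ - x ∈ X'.map (γ : MvPowerSeries σ O →+* R)
  rw [AlgHom.commutes, hmap, ← neg_sub]
  exact neg_mem ha

variable (h : IsResAlg O R)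

/-- The derivations killing the given elements. -/
def killedDer {C : Type} (x : C → R) : Submodule (ResidueField O) (tangentDer h) where
  carrier := {δ | ∀ c, δ.1 (x c) = 0}
  add_mem' {a b} ha hb c := by simp [ha c, hb c]
  zero_mem' c := rfl
  smul_mem' k a ha c := by simp [ha c]

/-- **The presentation**: the given coordinates and `g` further ones, if the derivations killing
the given ones form a space of dimension at most `g`. -/
theorem exists_coord_surjective {C : Type} [Finite C] (x : C → R) (hx : ∀ c, x c ∈ maximalIdeal R)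
    {g : ℕ} (hg : Module.finrank (ResidueField O) (killedDer h x) ≤ g) :
    ∃ γ : MvPowerSeries (C ⊕ Fin g) O →ₐ[O] R,
      Function.Surjective γ ∧ ∀ c, γ (X (Sum.inl c)) = x c := by
  have := h.isLocalHom
  let k := ResidueField O
  -- evaluation at `a` is a functional on the derivations killing `x`
  let evl : R → Module.Dual k (killedDer h x) := fun a =>
    { toFun := fun δ => δ.1.1 a
      map_add' := fun _ _ => rfl
      map_smul' := fun _ _ => rfl }
  -- pick elements whose evaluations span all of them; there are at most `g`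
  obtain ⟨t, htsub, htspan, htli⟩ :=
    exists_linearIndependent k (evl '' (maximalIdeal R : Set R))
  have htfin : t.Finite := htli.set_finite_of_isNoetherian
  have := htfin.fintype
  have hcard : Fintype.card t ≤ g := by
    refine le_trans ?_ hg
    rw [← Subspace.dual_finrank_eq (K := k) (V := killedDer h x)]
    exact htli.fintype_card_le_finrank
  choose pre hpre hpre' using fun v : t => htsub v.2
  obtain ⟨e⟩ : Nonempty (t ↪ Fin g) :=
    Function.Embedding.nonempty_of_card_le (by rwa [Fintype.card_fin])
  -- the further coordinates are these elements, padded by zeros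
  let y : Fin g → R := Function.extend e pre 0
  have hy : ∀ i, y i ∈ maximalIdeal R := fun i => by
    by_cases hi : ∃ v, e v = i
    · obtain ⟨v, rfl⟩ := hi
      simp only [y, e.injective.extend_apply]
      exact hpre v
    · simp only [y, Function.extend_apply' _ _ _ hi, Pi.zero_apply]
      exact zero_mem _
  have hs : ∀ i, Sum.elim x y i ∈ maximalIdeal R := fun i => i.casesOn hx hy
  obtain ⟨γ, hγ⟩ := exists_evalHom (O := O) (Sum.elim x y) hs
  refine ⟨γ, surjective_evalHom h.residue_surjective γ hγ hs ?_, fun c => hγ _⟩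
  -- surjectivity: a derivation killing all coordinates kills every element
  refine maximalIdeal_le_of_detect h (Set.range_subset_iff.mpr hs) fun δ hδ => ?_
  have hδx : δ ∈ killedDer h x := fun c => hδ _ ⟨Sum.inl c, rfl⟩
  refine tangentDer_eq_zero_of_generators h (Ideal.span_eq (maximalIdeal R)) δ fun a ha => ?_
  have h1 : evl a ∈ Submodule.span k t := htspan ▸ Submodule.subset_span ⟨a, ha, rfl⟩
  -- since its evaluations lie in the span of those of the chosen elements
  have h2 : ∀ v ∈ Submodule.span k t, v ⟨δ, hδx⟩ = 0 := fun v hv => by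
    refine Submodule.span_induction (p := fun v _ => v ⟨δ, hδx⟩ = 0) ?_ rfl ?_ ?_ hv
    · intro v hv
      have hv0 : δ.1 (pre ⟨v, hv⟩) = 0 := by
        refine hδ _ ⟨Sum.inr (e ⟨v, hv⟩), ?_⟩
        simp [y, e.injective.extend_apply]
      exact (congrFun (congrArg DFunLike.coe (hpre' ⟨v, hv⟩)) ⟨δ, hδx⟩).symm.trans hv0
    · intro u w _ _ hu hw; simp [hu, hw]
    · intro c u _ hu; simp [hu]
  exact h2 _ h1

end Fermat.Agent.RT.Assembly
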