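import Fermat.Agent.Deform.Level
import Fermat.Prelude.Thm_IsLocalRing_isAdicComplete_of_module_finite

/-!
# Subalgebras of a finite local coefficient algebra, and the algebra of matrix entries
-/

set_option autoImplicit false

noncomputable section

namespace Fermat.Agent.RT.Assembly

open IsLocalRing Fermat.Agent.Deform

variable {O : Type} [CommRing O] [IsDomain O] [IsDiscreteValuationRing O]
  {A : Type} [CommRing A] [IsLocalRing A] [Algebra O A] [Module.Finite O A]

omit [IsLocalRing A] in
/-- A subalgebra of a finite coefficient algebra is finite. -/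
theorem finite_subalgebra (S : Subalgebra O A) : Module.Finite O S :=
  Module.Finite.of_injective S.val.toLinearMap Subtype.val_injective

omit [IsLocalRing A] [IsDomain O] [IsDiscreteValuationRing O] in
/-- The inclusion of a subalgebra is a local homomorphism. -/
theorem isLocalHom_subalgebra_val (S : Subalgebra O A) : IsLocalHom (S.val : S →+* A) := by
  have : Module.Finite S A := Module.Finite.of_restrictScalars_finite O S A
  exact RingHom.IsIntegral.isLocalHom (f := algebraMap S A)
    (algebraMap_isIntegral_iff.mpr (Algebra.IsIntegral.of_finite S A)) Subtype.val_injective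

omit [IsDomain O] [IsDiscreteValuationRing O] in
/-- A subalgebra of a finite local coefficient algebra is local. -/
theorem isLocalRing_subalgebra (S : Subalgebra O A) : IsLocalRing S :=
  haveI := isLocalHom_subalgebra_val S
  RingHom.domain_isLocalRing (S.val : S →+* A)

omit [IsLocalRing A] in
theorem isAdicComplete_subalgebra [IsAdicComplete (maximalIdeal O) O] (S : Subalgebra O A)
    [IsLocalRing S] (h : IsLocalHom (algebraMap O S)) :
    IsAdicComplete (maximalIdeal S) S :=
  haveI := finite_subalgebra S
  isAdicComplete_of_module_finite (𝒪 := O)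

omit [Module.Finite O A] in
/-- A local subalgebra of a coefficient algebra with residue field that of `O` is one as well. -/
theorem isResAlg_subalgebra (h : IsResAlg O A) (S : Subalgebra O A) [IsLocalRing S] :
    IsResAlg O S := by
  have := h.isLocalHom
  refine ⟨⟨fun o ho => (isUnit_map_iff (algebraMap O A) o).mp (ho.map S.val)⟩, fun z => ?_⟩
  obtain ⟨x, rfl⟩ := residue_surjective z
  obtain ⟨o, ho⟩ := exists_sub_mem h (x : A)
  refine ⟨o, ?_⟩
  show residue S (algebraMap O S o) = residue S x
  rw [eq_comm, ← sub_eq_zero, ← map_sub, residue_eq_zero_iff]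
  intro hu
  exact ho (by simpa using hu.map S.val)

theorem augment_subalgebra (h : IsResAlg O A) (S : Subalgebra O A) [IsLocalRing S] (x : S) :
    augment (isResAlg_subalgebra h S) x = augment h (x : A) :=
  (augment_comp (isResAlg_subalgebra h S) h S.val (isLocalHom_subalgebra_val S) x).symm

/-- A power of the maximal ideal of the algebra lies in the extension of that of `O`. -/
theorem exists_pow_le_map :
    ∃ j, maximalIdeal A ^ j ≤ (maximalIdeal O).map (algebraMap O A) := by
  have := IsNoetherianRing.of_finite O A
  refine Ideal.exists_pow_le_of_le_radical_of_fg ?_ (IsNoetherian.noetherian _)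
  rw [Ideal.radical_eq_sInf]
  refine le_sInf fun P hP => ?_
  obtain ⟨hle, hPp⟩ := hP
  have hcm : maximalIdeal O ≤ P.comap (algebraMap O A) := Ideal.map_le_iff_le_comap.mp hle
  have hmax : (P.comap (algebraMap O A)).IsMaximal := by
    rw [← (maximalIdeal.isMaximal O).eq_of_le (Ideal.IsPrime.ne_top inferInstance) hcm]
    exact maximalIdeal.isMaximal O
  have hP' : P.IsMaximal := Ideal.isMaximal_of_isIntegral_of_isMaximal_comap P hmax
  exact (IsLocalRing.eq_maximalIdeal hP').ge

/-- Continuity descends to a subalgebra. -/
theorem isCont_corestrict (h : IsResAlg O A) (S : Subalgebra O A) [IsLocalRing S]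
    {r : Gal →* M2 A} (hr : IsCont r) (hS : ∀ σ i j, r σ i j ∈ S) :
    IsCont (corestrict S r hS) := by
  intro n
  have hlocS := (isResAlg_subalgebra h S).isLocalHom
  obtain ⟨j, hj⟩ := exists_pow_le_map (O := O) (A := A)
  obtain ⟨k, hk⟩ := (maximalIdeal O).exists_pow_inf_eq_pow_smul (Subalgebra.toSubmodule S)
  obtain ⟨L, hL, hL'⟩ := hr (j * (n + k))
  refine ⟨L, hL, fun σ hσ a b => ?_⟩
  set x : S := corestrict S r hS σ a b - (1 : M2 S) a b with hx
  have hxA : (x : A) ∈ maximalIdeal A ^ (j * (n + k)) := by
    have h1 : (((1 : M2 S) a b : S) : A) = (1 : M2 A) a b := by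
      rw [Matrix.one_apply, Matrix.one_apply]
      split_ifs <;> simp
    rw [hx, AddSubgroupClass.coe_sub, h1]
    exact hL' σ hσ a b
  rw [pow_mul] at hxA
  have hxm : (x : A) ∈ maximalIdeal O ^ (n + k) • (⊤ : Submodule O A) := by
    rw [Ideal.smul_top_eq_map, Submodule.restrictScalars_mem, Ideal.map_pow]
    exact Ideal.pow_right_mono hj (n + k) hxA
  have hmem : (x : A) ∈ maximalIdeal O ^ (n + k) • (⊤ : Submodule O A) ⊓
      Subalgebra.toSubmodule S := ⟨hxm, x.2⟩
  rw [hk (n + k) (Nat.le_add_left _ _), Nat.add_sub_cancel] at hmem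
  have hmem' : (x : A) ∈ maximalIdeal O ^ n • Subalgebra.toSubmodule S :=
    Submodule.smul_mono le_rfl inf_le_right hmem
  have hmap : maximalIdeal O ^ n • Subalgebra.toSubmodule S =
      (maximalIdeal O ^ n • (⊤ : Submodule O S)).map S.val.toLinearMap := by
    rw [Submodule.map_smul'', Submodule.map_top]
    congr 1
    ext y
    simp
  rw [hmap] at hmem'
  obtain ⟨y, hy, hyx⟩ := hmem'
  obtain rfl : y = x := Subtype.ext hyx
  rw [Ideal.smul_top_eq_map, SetLike.mem_coe, Submodule.restrictScalars_mem, Ideal.map_pow] at hy
  have hle : (maximalIdeal O).map (algebraMap O S) ≤ maximalIdeal S :=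
    Ideal.map_le_iff_le_comap.mpr fun o ho => map_nonunit (algebraMap O S) o ho
  exact Ideal.pow_right_mono hle n hy

/-- A lift with entries in a subalgebra is a lift over the subalgebra. -/
theorem lifts_corestrict {W : Rigid O} {h : IsResAlg O A} (S : Subalgebra O A) [IsLocalRing S]
    {r : Gal →* M2 A} (hl : Lifts W h r) (hS : ∀ σ i j, r σ i j ∈ S) :
    Lifts W (isResAlg_subalgebra h S) (corestrict S r hS) := fun σ i j => by
  rw [augment_subalgebra h S]
  exact hl σ i j

omit [IsLocalRing A] [Module.Finite O A] in
/-- A normalised representation with entries in a subalgebra is normalised over the subalgebra. -/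
theorem isNormal_corestrict {W : Rigid O} (S : Subalgebra O A) {r : Gal →* M2 A}
    (hn : IsNormal W r) (hS : ∀ σ i j, r σ i j ∈ S) : IsNormal W (corestrict S r hS) :=
  IsNormal.of_injective S.val Subtype.val_injective (by rw [mapM_corestrict]; exact hn)

end Fermat.Agent.RT.Assembly
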