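import Fermat.Agent.RT.Assembly.RamifiedTwo
import Fermat.Agent.EC.Rep.Local.Unipotent
import Fermat.Agent.EC.Reduction.Frey

/-!
# The residual representation of the Frey curve over a finite field

`freyRho` over an extension field of `ZMod p`, its Frobenius polynomials and the shape of inertia
away from `p`. It is used in `RT/Assembly/Forms`, `RT/Core/Residual` and
`RT/LowerP`.
-/

set_option autoImplicit false

noncomputable section

open WeierstrassCurve WeierstrassCurve.Affine WeierstrassCurve.Affine.Point Polynomial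
open scoped TensorProduct

namespace Fermat.Agent.RT.Assembly

local notation "Q̄" => AlgebraicClosure ℚ
local notation "GQ" => AlgebraicClosure ℚ ≃ₐ[ℚ] AlgebraicClosure ℚ

/-- A representation irreducible over every extension field is absolutely irreducible after any base
change. -/
theorem isAbsolutelyIrreducible_baseChange {k₀ k : Type} [Field k₀] [Field k] [Algebra k₀ k]
    (ρ : ResidualGaloisRep k₀)
    (h : ∀ (K : Type) [Field K] [Algebra k₀ K], (ρ.baseChange K).IsIrreducible) :
    (ρ.baseChange k).IsAbsolutelyIrreducible := by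
  let K := AlgebraicClosure k
  let e : K ⊗[k] (k ⊗[k₀] ρ.V) ≃ₗ[K] K ⊗[k₀] ρ.V :=
    TensorProduct.AlgebraTensorModule.cancelBaseChange k₀ k K K ρ.V
  have he : ∀ σ : GQ, e.toLinearMap ∘ₗ ((ρ.ρ σ).baseChange k).baseChange K =
      (ρ.ρ σ).baseChange K ∘ₗ e.toLinearMap := fun σ => by
    ext v
    simp [e]
  intro W hW
  rcases h K (W.map e.toLinearMap) (fun σ x hx => by
      obtain ⟨w, hw, rfl⟩ := hx
      exact ⟨_, hW σ w hw, LinearMap.congr_fun (he σ) w⟩) with h' | h'
  · exact Or.inl (Submodule.map_injective_of_injective e.injective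
      (h'.trans (Submodule.map_bot _).symm))
  · exact Or.inr (Submodule.map_injective_of_injective e.injective
      (h'.trans (by rw [Submodule.map_top, LinearEquiv.range])))

variable (P : FreyPackage) [Fact P.p.Prime] (k : Type) [Field k] [Algebra (ZMod P.p) k]

/-- The representation on the `p`-torsion of the Frey curve, over `k`. -/
def freyRho : ResidualGaloisRep k :=
  (EC.Rep.residualRep P.freyCurveInt P.p (EC.Reduction.Frey.Δ_ne_zero P)).baseChange k

/-- The traces of Frobenius elements of the residual representation. -/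
def freyAbar (ℓ : ℕ) : k :=
  (P.freyCurveInt.apOfModel ℓ : k)

variable {P k}

theorem charpoly_freyRho (σ : GQ) : LinearMap.charpoly ((freyRho P k).ρ σ) =
    (LinearMap.charpoly ((EC.Rep.residualRep P.freyCurveInt P.p
      (EC.Reduction.Frey.Δ_ne_zero P)).ρ σ)).map (algebraMap (ZMod P.p) k) :=
  LinearMap.charpoly_baseChange _ k

/-- At a good prime `ℓ ≠ p` Frobenius has characteristic polynomial `X² - a_ℓ X + ℓ`. -/
theorem charpoly_freyRho_frobenius {ℓ : ℕ} (hℓ : ℓ.Prime)
    (hgood : P.freyCurveInt.IsGoodPrimeFor ℓ) (hne : ℓ ≠ P.p) {A : ValuationSubring Q̄}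
    (hA : A.LiesOverPrime ℓ) {σ : GQ} (hσ : A.IsFrobeniusAt σ ℓ) :
    LinearMap.charpoly ((freyRho P k).ρ σ) =
      X ^ 2 - C (freyAbar P k ℓ) * X + C (ℓ : k) := by
  rw [charpoly_freyRho, EC.Rep.charpoly_residualRep_frobenius _ hℓ hgood hne hA hσ]
  simp [freyAbar]

omit [Fact P.p.Prime] [Algebra (ZMod P.p) k] in
/-- The Frey curve is semistable. -/
theorem frey_semistable {q : ℕ} (hq : q.Prime) :
    ¬ ((q : ℤ) ∣ P.freyCurveInt.c₄ ∧ (q : ℤ) ∣ P.freyCurveInt.Δ) := fun h =>
  EC.Reduction.Frey.not_dvd_c₄ P hq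
    (by_contra fun h' => EC.Reduction.Frey.not_dvd_Δ P hq h' h.2) h.1

/-- Inertia away from `p` acts with characteristic polynomial `(X - 1)²`. -/
theorem charpoly_freyRho_inertia {q : ℕ} (hq : q.Prime) (hqp : q ≠ P.p)
    {A : ValuationSubring Q̄} (hA : A.LiesOverPrime q) {σ : GQ}
    (hσ : σ ∈ A.inertiaSubgroupIn ℚ) :
    LinearMap.charpoly ((freyRho P k).ρ σ) = (X - C 1) ^ 2 := by
  have h := EC.Rep.isUnipotentOnInertiaAt_residualRep (EC.Reduction.Frey.Δ_ne_zero P) hq hqp
    (frey_semistable hq) A hA σ hσ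
  rw [charpoly_freyRho]
  exact (congrArg (Polynomial.map _) h).trans (by simp)

/-- Inertia away from `p` acts with trace `2`. -/
theorem trace_freyRho_inertia {q : ℕ} (hq : q.Prime) (hqp : q ≠ P.p)
    {A : ValuationSubring Q̄} (hA : A.LiesOverPrime q) {σ : GQ}
    (hσ : σ ∈ A.inertiaSubgroupIn ℚ) :
    LinearMap.trace k _ ((freyRho P k).ρ σ) = 2 := by
  have h := charpoly_freyRho_inertia (k := k) hq hqp hA hσ
  rw [EC.FrobTrace.charpoly_of_finrank_eq_two (freyRho P k).finrank_eq] at h
  have h1 := congrArg (fun f => Polynomial.coeff f 1) h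
  rw [show ((X : k[X]) - C 1) ^ 2 = X ^ 2 - C 2 * X + C 1 by
    rw [show (2 : k) = 1 + 1 by norm_num, map_add, map_one]; ring] at h1
  simpa [coeff_C, coeff_one] using h1

/-- Inertia at `2` does not act trivially. -/
theorem exists_inertia_two_ne_one {A : ValuationSubring Q̄} (hA : A.LiesOverPrime 2) :
    ∃ σ ∈ A.inertiaSubgroupIn ℚ, (freyRho P k).ρ σ ≠ 1 := by
  obtain ⟨σ, hσ, Q, hQ, hmove⟩ := frey_exists_inertia_moves P hA
  refine ⟨σ, hσ, fun h => hmove ?_⟩
  set x : (EC.Rep.residualRep P.freyCurveInt P.p (EC.Reduction.Frey.Δ_ne_zero P)).V :=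
    ⟨Q, by rw [Submodule.mem_torsionBy_iff, natCast_zsmul]; exact hQ⟩
  have h1 := LinearMap.congr_fun h ((1 : k) ⊗ₜ[ZMod P.p] x)
  rw [Module.End.one_apply] at h1
  have h2 := Module.FaithfullyFlat.tensorProduct_mk_injective (A := ZMod P.p) (B := k) _ h1
  exact congrArg Subtype.val h2

end Fermat.Agent.RT.Assembly
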