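import Fermat.Agent.RT.Interface
import Fermat.Agent.RT.Assembly.Residual
import Fermat.Agent.LevelRaising.Residual
import Fermat.Agent.GaloisReps.Attach
import Fermat.Agent.ConductorLevel.Raise
import Fermat.Agent.Arith.Chebotarev.Main
import Fermat.Prelude.Def_FLTPrelim_ModularRep

/-!
# Modular forms congruent to the Frey representation
-/

set_option autoImplicit false

noncomputable section

open WeierstrassCurve WeierstrassCurve.Affine WeierstrassCurve.Affine.Point Polynomial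
open CongruenceSubgroup ModularFormClass

namespace Fermat.Agent.RT.Assembly

local notation "Q̄" => AlgebraicClosure ℚ
local notation "GQ" => AlgebraicClosure ℚ ≃ₐ[ℚ] AlgebraicClosure ℚ

/-- Characteristic polynomials agreeing at almost all Frobenius elements agree everywhere. -/
theorem charpoly_eq_of_frobenius {F : Type} [Field F] (ρ₁ ρ₂ : ResidualGaloisRep F) (T : Finset ℕ)
    (h : ∀ ℓ : ℕ, ℓ.Prime → ℓ ∉ T → ∀ A : ValuationSubring Q̄, A.LiesOverPrime ℓ →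
      ∀ σ : GQ, A.IsFrobeniusAt σ ℓ →
        LinearMap.charpoly (ρ₁.ρ σ) = LinearMap.charpoly (ρ₂.ρ σ)) (g : GQ) :
    LinearMap.charpoly (ρ₁.ρ g) = LinearMap.charpoly (ρ₂.ρ g) := by
  obtain ⟨L₁, hL₁, h₁⟩ := ρ₁.factorsThroughFiniteLevel
  obtain ⟨L₂, hL₂, h₂⟩ := ρ₂.factorsThroughFiniteLevel
  obtain ⟨ℓ, hℓ, hℓT, A, hA, σ, hσ, he⟩ := Arith.Chebotarev.exists_frobenius_eq
    (ρ₁.ρ.prod ρ₂.ρ) (L₁ ⊔ L₂) (fun τ hτ => Prod.ext
      (h₁ τ fun x hx => hτ x ((le_sup_left : L₁ ≤ L₁ ⊔ L₂) hx))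
      (h₂ τ fun x hx => hτ x ((le_sup_right : L₂ ≤ L₁ ⊔ L₂) hx))) g T
  have h' := h ℓ hℓ hℓT A hA σ hσ
  rw [show ρ₁.ρ σ = ρ₁.ρ g from congrArg Prod.fst he,
    show ρ₂.ρ σ = ρ₂.ρ g from congrArg Prod.snd he] at h'
  exact h'

/-- Galois traces on torsion do not change with the coordinates. -/
theorem galoisTrace_variableChange (E : WeierstrassCurve ℚ) [E.IsElliptic] (C : VariableChange ℚ)
    (p : ℕ) (σ : GQ) :
    galoisTrace (K := Q̄) ℚ (C • E) p σ = galoisTrace (K := Q̄) ℚ E p σ := by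
  -- the change of coordinates is a Galois equivariant isomorphism of point groups over `Q̄`
  obtain ⟨Φ, hΦ⟩ := LevelRaising.exists_pointEquiv_variableChange (L := Q̄) E C
  -- it restricts to the `p`-torsion
  let e : Submodule.torsionBy ℤ ((C • E)⁄Q̄).Point p ≃+ Submodule.torsionBy ℤ (E⁄Q̄).Point p :=
    { toFun := fun x => ⟨Φ x.1, by
        rw [Submodule.mem_torsionBy_iff, ← map_zsmul, (Submodule.mem_torsionBy_iff _ _).mp x.2,
          _root_.map_zero]⟩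
      invFun := fun x => ⟨Φ.symm x.1, by
        rw [Submodule.mem_torsionBy_iff, ← map_zsmul, (Submodule.mem_torsionBy_iff _ _).mp x.2,
          _root_.map_zero]⟩
      left_inv := fun x => Subtype.ext (Φ.symm_apply_apply x.1)
      right_inv := fun x => Subtype.ext (Φ.apply_symm_apply x.1)
      map_add' := fun x y => Subtype.ext (map_add Φ x.1 y.1) }
  let eL : Submodule.torsionBy ℤ ((C • E)⁄Q̄).Point p ≃ₗ[ZMod p]
      Submodule.torsionBy ℤ (E⁄Q̄).Point p :=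
    LinearEquiv.ofBijective (e.toAddMonoidHom.toZModLinearMap p) e.bijective
  -- the two Galois endomorphisms are conjugate, so their traces agree
  have he : galoisRepModuleEnd ℚ E p σ =
      eL.conj (galoisRepModuleEnd ℚ (C • E) p σ) := by
    refine LinearMap.ext fun x => ?_
    obtain ⟨y, rfl⟩ := eL.surjective x
    rw [LinearEquiv.conj_apply_apply, eL.symm_apply_apply]
    exact (Subtype.ext (hΦ σ y.1)).symm
  show LinearMap.trace _ _ (galoisRepModuleEnd ℚ (C • E) p σ) =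
    LinearMap.trace _ _ (galoisRepModuleEnd ℚ E p σ)
  rw [he, LinearMap.trace_conj']

/-- Integral models of one elliptic curve have `a_ℓ` congruent modulo `p` at a common good prime
`ℓ ≠ p`. -/
theorem apOfModel_cast_eq {E : WeierstrassCurve ℚ} [E.IsElliptic] {W W' : WeierstrassCurve ℤ}
    (hW : W.IsIntegralModelOf E) (hW' : W'.IsIntegralModelOf E) {p : ℕ} [Fact p.Prime] {ℓ : ℕ}
    (hℓ : ℓ.Prime) (hgood : W.IsGoodPrimeFor ℓ) (hgood' : W'.IsGoodPrimeFor ℓ) (hne : ℓ ≠ p) :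
    (W.apOfModel ℓ : ZMod p) = (W'.apOfModel ℓ : ZMod p) := by
  obtain ⟨A, hA⟩ := Arith.exists_liesOverPrime hℓ
  obtain ⟨σ, hσ⟩ := Arith.exists_isFrobeniusAt hA hℓ
  obtain ⟨C, hC⟩ := hW
  obtain ⟨C', hC'⟩ := hW'
  rw [← EC.FrobTrace.galoisTrace_frobenius W hℓ hgood hne hA hσ,
    ← EC.FrobTrace.galoisTrace_frobenius W' hℓ hgood' hne hA hσ, ← hC, ← hC',
    galoisTrace_variableChange, galoisTrace_variableChange]

variable {P : FreyPackage} [Fact P.p.Prime] {k : Type} [Field k] [Algebra (ZMod P.p) k]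

/-- The level `M` representation of a congruent form, against the Frey representation. -/
theorem charpoly_attached_eq
    (hD : ∀ (N p : ℕ) [NeZero N] [Fact p.Prime], Nonempty (GaloisReps.HeckeGaloisModel N p))
    {M : ℕ} (hM : M ≠ 0) {g : CuspForm (Gamma0 M) 2} (hg : g.IsNormalizedEigenform)
    (φ : integralClosure ℤ ℂ →+* AlgebraicClosure k) (T : Finset ℕ)
    (hout : ∀ ℓ : ℕ, ℓ.Prime → ℓ ∉ T → ∀ a : integralClosure ℤ ℂ, (a : ℂ) = qCoeff g ℓ →
      φ a = algebraMap k _ (freyAbar P k ℓ)) :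
    ∃ ρ : ResidualGaloisRep (AlgebraicClosure k), ρ.IsAttachedTo g φ ∧
      ∀ σ : GQ, LinearMap.charpoly (ρ.ρ σ) =
        (LinearMap.charpoly ((freyRho P k).ρ σ)).map (algebraMap k (AlgebraicClosure k)) := by
  classical
  have hpk : CharP k P.p := charP_of_injective_algebraMap (algebraMap (ZMod P.p) k).injective P.p
  have : CharP (AlgebraicClosure k) P.p :=
    charP_of_injective_algebraMap (algebraMap k (AlgebraicClosure k)).injective P.p
  obtain ⟨ρ, hatt, -⟩ := GaloisReps.exists_residual_eigenform hD hg P.pp φ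
  refine ⟨ρ, hatt, fun σ => ?_⟩
  refine (charpoly_eq_of_frobenius ρ ((freyRho P k).baseChange (AlgebraicClosure k))
    (T ∪ insert P.p (M.primeFactors ∪ P.freyCurveInt.Δ.natAbs.primeFactors))
    (fun ℓ hℓ hℓT A hA τ hτ => ?_) σ).trans (LinearMap.charpoly_baseChange _ _)
  simp only [Finset.mem_union, Finset.mem_insert, not_or] at hℓT
  have hℓM : ¬ ℓ ∣ M := fun h => hℓT.2.2.1 (Nat.mem_primeFactors.mpr ⟨hℓ, h, hM⟩)
  have hgood : P.freyCurveInt.IsGoodPrimeFor ℓ := fun h => hℓT.2.2.2 (Nat.mem_primeFactors.mpr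
    ⟨hℓ, Int.natCast_dvd.mp h, Int.natAbs_ne_zero.mpr (EC.Reduction.Frey.Δ_ne_zero P)⟩)
  have hℓ0 : (ℓ : AlgebraicClosure k) ≠ 0 := fun h => hℓT.2.1
    ((Nat.prime_dvd_prime_iff_eq P.pp hℓ).mp ((CharP.cast_eq_zero_iff _ P.p ℓ).mp h)).symm
  obtain ⟨a, ha, hc⟩ := hatt ℓ hℓ hℓM hℓ0 A hA τ hτ
  rw [hc, hout ℓ hℓ hℓT.1 a ha]
  show _ = LinearMap.charpoly (((freyRho P k).ρ τ).baseChange (AlgebraicClosure k))
  rw [LinearMap.charpoly_baseChange, charpoly_freyRho_frobenius hℓ hgood hℓT.2.1 hA hτ]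
  simp

/-- A congruence outside a finite set extends to all good primes away from the level and `p`. -/
theorem congr_of_congr_outside
    (hD : ∀ (N p : ℕ) [NeZero N] [Fact p.Prime], Nonempty (GaloisReps.HeckeGaloisModel N p))
    {M : ℕ} {g : CuspForm (Gamma0 M) 2} (hg : g.IsNormalizedEigenform)
    (φ : integralClosure ℤ ℂ →+* AlgebraicClosure k) (T : Finset ℕ)
    (hout : ∀ ℓ : ℕ, ℓ.Prime → ℓ ∉ T → ∀ a : integralClosure ℤ ℂ, (a : ℂ) = qCoeff g ℓ →
      φ a = algebraMap k _ (freyAbar P k ℓ))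
    {ℓ : ℕ} (hℓ : ℓ.Prime) (hgood : P.freyCurveInt.IsGoodPrimeFor ℓ) (hℓM : ¬ ℓ ∣ M)
    (hℓp : ℓ ≠ P.p) {a : integralClosure ℤ ℂ} (ha : (a : ℂ) = qCoeff g ℓ) :
    φ a = algebraMap k _ (freyAbar P k ℓ) := by
  have hpk : CharP k P.p := charP_of_injective_algebraMap (algebraMap (ZMod P.p) k).injective P.p
  have : CharP (AlgebraicClosure k) P.p :=
    charP_of_injective_algebraMap (algebraMap k (AlgebraicClosure k)).injective P.p
  have hℓ0 : (ℓ : AlgebraicClosure k) ≠ 0 := fun h => hℓp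
    ((Nat.prime_dvd_prime_iff_eq P.pp hℓ).mp ((CharP.cast_eq_zero_iff _ P.p ℓ).mp h)).symm
  obtain ⟨ρ, hatt, hρ⟩ := charpoly_attached_eq hD (M := M) (fun h =>
    hℓM (by rw [h]; exact dvd_zero ℓ)) hg φ T hout
  obtain ⟨A, hA⟩ := Arith.exists_liesOverPrime hℓ
  obtain ⟨σ, hσ⟩ := Arith.exists_isFrobeniusAt hA hℓ
  obtain ⟨a', ha', hc⟩ := hatt ℓ hℓ hℓM hℓ0 A hA σ hσ
  rw [hρ σ, charpoly_freyRho_frobenius hℓ hgood hℓp hA hσ] at hc
  have h1 := congrArg (fun f => Polynomial.coeff f 1) hc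
  rw [show a = a' from Subtype.ext (ha.trans ha'.symm)]
  simpa [coeff_X_pow] using h1.symm

/-- A congruent form makes the representation modular of its level. -/
theorem modularRepOfLevel_of_congruent
    (hD : ∀ (N p : ℕ) [NeZero N] [Fact p.Prime], Nonempty (GaloisReps.HeckeGaloisModel N p))
    {S : Finset ℕ} {M : ℕ} {g : CuspForm (Gamma0 M) 2}
    (h : IsCongruentForm S (freyAbar P k) g) : P.ModularRepOfLevel M := by
  obtain ⟨hg, φ, hφ⟩ := h
  have hpk : CharP k P.p := charP_of_injective_algebraMap (algebraMap (ZMod P.p) k).injective P.p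
  have : CharP (AlgebraicClosure k) P.p :=
    charP_of_injective_algebraMap (algebraMap k (AlgebraicClosure k)).injective P.p
  have hmax : (RingHom.ker φ).IsMaximal := by
    have hP : (RingHom.ker φ).IsPrime := RingHom.ker_isPrime φ
    refine Ideal.isMaximal_of_isIntegral_of_isMaximal_comap (R := ℤ) _ ?_
    have hle : Ideal.span {(P.p : ℤ)} ≤ (RingHom.ker φ).comap (algebraMap ℤ _) := by
      rw [Ideal.span_le, Set.singleton_subset_iff, SetLike.mem_coe, Ideal.mem_comap,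
        RingHom.mem_ker, map_natCast, map_natCast]
      exact CharP.cast_eq_zero _ _
    have hmax' : (Ideal.span {(P.p : ℤ)}).IsMaximal :=
      PrincipalIdealRing.isMaximal_of_irreducible (Nat.prime_iff_prime_int.mp P.pp).irreducible
    rw [← hmax'.eq_of_le (Ideal.IsPrime.comap _).ne_top hle]
    exact hmax'
  refine ⟨g, P.freyCurveInt, RingHom.ker φ, hg, ⟨1, by
    rw [one_smul, EC.Reduction.Frey.freyCurve_eq_map]⟩, hmax, ?_, fun ℓ hℓ hgood hℓM hℓp => ?_⟩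
  · rw [RingHom.mem_ker, map_natCast]
    exact CharP.cast_eq_zero _ _
  · have : NeZero M := ⟨fun h => hℓM (h ▸ dvd_zero ℓ)⟩
    obtain ⟨θ, hθ⟩ := GaloisReps.exists_eigenform_character hg
    refine ⟨θ (HeckeDuality.heckeOp M 2 ℓ hℓ), hθ ℓ hℓ, ?_⟩
    rw [RingHom.mem_ker, map_sub, sub_eq_zero,
      congr_of_congr_outside hD hg φ S hφ hℓ hgood hℓM hℓp (hθ ℓ hℓ), map_intCast]
    exact map_intCast (algebraMap k _) _

/-- Modularity gives a congruent form. -/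
theorem isCongruentLevel_of_modularRepOfLevel
    (hD : ∀ (N p : ℕ) [NeZero N] [Fact p.Prime], Nonempty (GaloisReps.HeckeGaloisModel N p))
    {S : Finset ℕ} {N : ℕ} (hS : ∀ ℓ : ℕ, ℓ.Prime →
      (ℓ = P.p ∨ ℓ ∣ N ∨ (ℓ : ℤ) ∣ P.freyCurveInt.Δ) → ℓ ∈ S)
    (hmod : P.ModularRepOfLevel N) : IsCongruentLevel S (freyAbar P k) N := by
  classical
  obtain ⟨g, W, 𝔪, hg, hW, h𝔪, hp𝔪, hcong⟩ := hmod
  let : Field (integralClosure ℤ ℂ ⧸ 𝔪) := Ideal.Quotient.field 𝔪
  have hpF : CharP (integralClosure ℤ ℂ ⧸ 𝔪) P.p := by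
    refine (CharP.charP_iff_prime_eq_zero P.pp).mpr ?_
    rw [← map_natCast (Ideal.Quotient.mk 𝔪), Ideal.Quotient.eq_zero_iff_mem]
    exact hp𝔪
  let : Algebra (ZMod P.p) (integralClosure ℤ ℂ ⧸ 𝔪) := ZMod.algebra _ P.p
  have : Algebra.IsIntegral ℤ (integralClosure ℤ ℂ ⧸ 𝔪) := inferInstance
  have : Algebra.IsIntegral (ZMod P.p) (integralClosure ℤ ℂ ⧸ 𝔪) :=
    ⟨fun x => (Algebra.IsIntegral.isIntegral (R := ℤ) x).tower_top⟩
  let j : (integralClosure ℤ ℂ ⧸ 𝔪) →ₐ[ZMod P.p] AlgebraicClosure k := IsAlgClosed.lift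
  let φ : integralClosure ℤ ℂ →+* AlgebraicClosure k := j.toRingHom.comp (Ideal.Quotient.mk 𝔪)
  have hE : P.freyCurve.IsElliptic := Mazur.Small.frey_isElliptic P
  have hWΔ : W.Δ ≠ 0 := fun h0 => by
    obtain ⟨C, hC⟩ := hW
    have : (W.map (Int.castRingHom ℚ)).IsElliptic := hC ▸ inferInstance
    simpa [h0] using this.isUnit.ne_zero
  refine ⟨g, hg, φ, fun ℓ hℓ hℓS a ha => ?_⟩
  have hgood : P.freyCurveInt.IsGoodPrimeFor ℓ := fun h => hℓS (hS ℓ hℓ (Or.inr (Or.inr h)))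
  refine congr_of_congr_outside hD hg φ (S ∪ W.Δ.natAbs.primeFactors) (fun w hw hwT b hb => ?_)
    hℓ hgood (fun h => hℓS (hS ℓ hℓ (Or.inr (Or.inl h))))
    (fun h => hℓS (hS ℓ hℓ (Or.inl h))) ha
  simp only [Finset.mem_union, not_or] at hwT
  have hwW : W.IsGoodPrimeFor w := fun h => hwT.2
    (Nat.mem_primeFactors.mpr ⟨hw, Int.natCast_dvd.mp h, Int.natAbs_ne_zero.mpr hWΔ⟩)
  have hwF : P.freyCurveInt.IsGoodPrimeFor w := fun h => hwT.1 (hS w hw (Or.inr (Or.inr h)))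
  have hwp : w ≠ P.p := fun h => hwT.1 (hS w hw (Or.inl h))
  obtain ⟨b', hb', hbm⟩ := hcong w hw hwW (fun h => hwT.1 (hS w hw (Or.inr (Or.inl h)))) hwp
  rw [show b = b' from Subtype.ext (hb.trans hb'.symm)]
  have e1 : φ b' = φ ((W.apOfModel w : ℤ) : integralClosure ℤ ℂ) := by
    simp only [φ, RingHom.comp_apply]
    rw [(Ideal.Quotient.mk_eq_mk_iff_sub_mem _ _).mpr hbm]
  have e2 := congrArg ((algebraMap k (AlgebraicClosure k)).comp (algebraMap (ZMod P.p) k))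
    (apOfModel_cast_eq hW (E := P.freyCurve) (W' := P.freyCurveInt) (p := P.p)
      ⟨1, by rw [one_smul, EC.Reduction.Frey.freyCurve_eq_map]⟩ hw hwW hwF hwp)
  rw [map_intCast, map_intCast] at e2
  rw [e1, map_intCast, freyAbar, map_intCast, e2]

omit [Fact P.p.Prime] [Algebra (ZMod P.p) k] in
/-- A newform below a congruent form. -/
theorem exists_congruent_newform {S : Finset ℕ} {M : ℕ} (hM : M ≠ 0)
    (h : IsCongruentLevel S (freyAbar P k) M) :
    ∃ M' : ℕ, M' ∣ M ∧ ∃ g : CuspForm (Gamma0 M') 2, g.IsNewform ∧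
      IsCongruentForm (S ∪ M.primeFactors) (freyAbar P k) g := by
  obtain ⟨f, hf, φ, hφ⟩ := h
  obtain ⟨M', hM', g, hg, hgf⟩ := ConductorLevel.exists_newform_below hM hf
  refine ⟨M', hM', g, hg, hg.1, φ, fun ℓ hℓ hℓS a ha => ?_⟩
  simp only [Finset.mem_union, not_or] at hℓS
  exact hφ ℓ hℓ hℓS.1 a (ha.trans (hgf ℓ hℓ fun hd =>
    hℓS.2 (Nat.mem_primeFactors.mpr ⟨hℓ, hd, hM⟩)))

end Fermat.Agent.RT.Assembly
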