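import Fermat.Agent.RT.Germ.Multi

/-!
# Two by two matrices at the auxiliary places

An inertia matrix with prescribed distinct eigenvalues of order dividing `p`, conjugated to its
`v`-th power by a Frobenius matrix, `v ≡ 1` modulo `p`, commutes with it and gives the relations
of `relIdeal`.
-/

set_option autoImplicit false

noncomputable section

namespace Fermat.Agent.RT.Assembly

open Matrix

variable {R : Type*} [CommRing R]

/-- The coordinates `(a, b, e)` of the traceless part; `c` is an inverse of `2`. -/
def tlCoord (c : R) (X : Matrix (Fin 2) (Fin 2) R) : Fin 3 → R :=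
  ![c * (X 0 0 - X 1 1), X 0 1, X 1 0]

theorem tlCoord_minor {X Y : Matrix (Fin 2) (Fin 2) R} {c : R}
    (h : Commute X Y) (i j : Fin 3) :
    tlCoord c X i * tlCoord c Y j = tlCoord c X j * tlCoord c Y i := by
  have h00 := congrFun (congrFun h.eq 0) 0
  have h01 := congrFun (congrFun h.eq 0) 1
  have h10 := congrFun (congrFun h.eq 1) 0
  simp only [Matrix.mul_apply, Fin.sum_univ_two] at h00 h01 h10
  fin_cases i <;> fin_cases j <;> simp [tlCoord] <;>
    first
    | ring1
    | linear_combination h00
    | linear_combination (-1 : R) * h00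
    | linear_combination c * h01
    | linear_combination -c * h01
    | linear_combination c * h10
    | linear_combination -c * h10

theorem tlCoord_conic {X : Matrix (Fin 2) (Fin 2) R} {c τ : R} (hc : 2 * c = 1)
    (htr : X.trace = τ) (hdet : X.det = 1) :
    tlCoord c X 0 ^ 2 + tlCoord c X 1 * tlCoord c X 2 = (c * τ) ^ 2 - 1 := by
  rw [Matrix.trace_fin_two] at htr
  rw [Matrix.det_fin_two] at hdet
  simp [tlCoord]
  subst htr
  linear_combination (-1 : R) * hdet - (2 * c + 1) * X 0 0 * X 1 1 * hc

/-- With `2 c = 1`, `4 (a² + b e) = tr² - 4 det` for the traceless coordinates `(a, b, e)`. -/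
theorem tlCoord_sq {X : Matrix (Fin 2) (Fin 2) R} {c : R} (hc : 2 * c = 1) :
    4 * (tlCoord c X 0 ^ 2 + tlCoord c X 1 * tlCoord c X 2) = X.trace ^ 2 - 4 * X.det := by
  rw [Matrix.trace_fin_two, Matrix.det_fin_two]
  simp [tlCoord]
  linear_combination ((X 0 0 - X 1 1) ^ 2 * (2 * c + 1)) * hc

/-- The quadratic equation of a matrix of determinant one. -/
theorem quadratic_of_det_one {X : Matrix (Fin 2) (Fin 2) R} {τ : R} (htr : X.trace = τ)
    (hdet : X.det = 1) : X * X - τ • X + 1 = 0 := by
  rw [Matrix.trace_fin_two] at htr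
  rw [Matrix.det_fin_two] at hdet
  ext i j
  fin_cases i <;> fin_cases j <;>
    simp [Matrix.mul_apply, Fin.sum_univ_two, ← htr] <;>
    first
    | ring1
    | linear_combination (-1 : R) * hdet

/-- An element annihilated by `(X - a) (X - b)` for distinct `p`-th roots of unity has `p`-th power
one. -/
theorem pow_eq_one_of_quadratic {O : Type*} [CommRing O] [IsDomain O] {B : Type*} [Ring B]
    [Algebra O B] {a b : O} (hab : a ≠ b) {p : ℕ} (ha : a ^ p = 1) (hb : b ^ p = 1) {x : B}
    (hx : x * x - (a + b) • x + (a * b) • (1 : B) = 0) : x ^ p = 1 := by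
  obtain ⟨q, hq⟩ : Polynomial.X - Polynomial.C a ∣ (Polynomial.X ^ p - 1 : Polynomial O) :=
    Polynomial.dvd_iff_isRoot.mpr (by simp [ha])
  have hqb : q.IsRoot b := by
    have h := congrArg (Polynomial.eval b) hq
    simp only [Polynomial.eval_sub, Polynomial.eval_pow, Polynomial.eval_X, Polynomial.eval_one,
      hb, sub_self, Polynomial.eval_mul, Polynomial.eval_C] at h
    exact (mul_eq_zero.mp h.symm).resolve_left (sub_ne_zero.mpr (Ne.symm hab))
  obtain ⟨s, rfl⟩ := Polynomial.dvd_iff_isRoot.mpr hqb
  have hfac : (Polynomial.X - Polynomial.C a) * (Polynomial.X - Polynomial.C b) =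
      Polynomial.X * Polynomial.X - Polynomial.C (a + b) * Polynomial.X + Polynomial.C (a * b) := by
    simp only [map_add, map_mul]
    ring
  have h := congrArg (Polynomial.aeval x) hq
  rw [← mul_assoc, hfac] at h
  simp only [map_sub, map_pow, map_one, map_mul, map_add, Polynomial.aeval_X,
    Polynomial.aeval_C] at h
  rw [Algebra.smul_def, Algebra.smul_def, mul_one, map_add, map_mul] at hx
  rw [hx, zero_mul, sub_eq_zero] at h
  exact h

/-- If `x ^ p = 1`, `v ≡ 1 (mod p)` and `y x = x ^ v y`, then `y` commutes with `x`. -/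
theorem commute_of_conj_eq_pow {B : Type*} [Monoid B] {x y : B} {p v : ℕ}
    (hx : x ^ p = 1) (hv : v % p = 1) (hconj : y * x = x ^ v * y) : Commute y x := by
  have : x ^ v = x := by
    rw [← Nat.div_add_mod v p, hv, pow_succ, pow_mul, hx, one_pow, one_mul]
  rw [this] at hconj
  exact hconj

end Fermat.Agent.RT.Assembly
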