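import Fermat.Agent.RT.Algebra.Ultralimit
import Fermat.Agent.RT.Algebra.Finite

/-!
# The quotients of `O[[y]]` at finite levels and their characters

`levelIdeal p n` is generated by the `(1 + y i) ^ p ^ n - 1`; the quotient is finite over `O`, and
`ζ` with the `1 + y i` gives a character of `(V → ZMod p) × (Fin r → ZMod (p ^ n))`.
-/

set_option autoImplicit false

noncomputable section

namespace Fermat.Agent.RT.Assembly

open MvPowerSeries IsLocalRing Fermat.Agent.RT.Algebra

/-- The ideal of level `n`. -/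
def levelIdeal {ι : Type*} (O : Type*) [CommRing O] (p n : ℕ) : Ideal (MvPowerSeries ι O) :=
  Ideal.span (Set.range fun i : ι => (1 + X i) ^ p ^ n - 1)

theorem one_add_pow_sub_one_mem {A : Type*} [CommRing A] {I : Ideal A} {p : ℕ}
    (hpI : (p : A) ∈ I) {x : A} (hx : x ∈ I) (n : ℕ) : (1 + x) ^ p ^ n - 1 ∈ I ^ (n + 1) := by
  induction n with
  | zero => simpa using hx
  | succ n ih =>
    obtain ⟨y, hy, hy'⟩ : ∃ y ∈ I ^ (n + 1), (1 + x) ^ p ^ n = 1 + y :=
      ⟨_, ih, (add_sub_cancel 1 _).symm⟩
    have hfac : (1 + y) ^ p - 1 = (∑ i ∈ Finset.range p, (1 + y) ^ i) * y := by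
      rw [← geom_sum_mul, add_sub_cancel_left]
    have hsum : ∑ i ∈ Finset.range p, (1 + y) ^ i ∈ I := by
      have h : ∑ i ∈ Finset.range p, ((1 + y) ^ i - 1) ∈ I := Ideal.sum_mem _ fun i _ => by
        rw [← geom_sum_mul, add_sub_cancel_left]
        exact Ideal.mul_mem_left _ _ (Ideal.pow_le_self (Nat.succ_ne_zero n) hy)
      simp only [Finset.sum_sub_distrib, Finset.sum_const, Finset.card_range, nsmul_one] at h
      simpa using add_mem h hpI
    rw [pow_succ p n, pow_mul, hy', hfac, pow_succ' I (n + 1)]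
    exact Ideal.mul_mem_mul hsum hy

variable {ι : Type*} [Finite ι] {O : Type*} [CommRing O] [IsLocalRing O] {p : ℕ}

omit [Finite ι] in
theorem natCast_mem_maximalIdeal (hp : (p : O) ∈ maximalIdeal O) :
    (p : MvPowerSeries ι O) ∈ maximalIdeal (MvPowerSeries ι O) :=
  (IsLocalRing.mem_maximalIdeal _).mpr fun h => (IsLocalRing.mem_maximalIdeal _).mp hp (by
    simpa using MvPowerSeries.isUnit_iff_constantCoeff.mp h)

omit [Finite ι] in
theorem X_mem_maximalIdeal (i : ι) :
    (X i : MvPowerSeries ι O) ∈ maximalIdeal (MvPowerSeries ι O) :=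
  span_X_le_maximalIdeal (Ideal.subset_span ⟨i, rfl⟩)

omit [Finite ι] in
/-- The ideal of level `n` lies in the `(n + 1)`-st power of the maximal ideal. -/
theorem levelIdeal_le (hp : (p : O) ∈ maximalIdeal O) (n : ℕ) :
    levelIdeal O p n ≤ maximalIdeal (MvPowerSeries ι O) ^ (n + 1) := by
  rw [levelIdeal, Ideal.span_le]
  rintro _ ⟨i, rfl⟩
  exact one_add_pow_sub_one_mem (natCast_mem_maximalIdeal hp) (X_mem_maximalIdeal i) n

omit [Finite ι] [IsLocalRing O] in
theorem X_pow_mem_levelIdeal_sup (hpr : p.Prime) (n : ℕ) (i : ι) :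
    (X i : MvPowerSeries ι O) ^ p ^ n ∈ levelIdeal O p n ⊔
      Ideal.span {(p : MvPowerSeries ι O)} := by
  obtain ⟨c, hc⟩ := exists_add_pow_prime_pow_eq hpr (1 : MvPowerSeries ι O) (X i) n
  rw [Submodule.mem_sup]
  refine ⟨(1 + X i) ^ p ^ n - 1, Ideal.subset_span ⟨i, rfl⟩,
    -((p : MvPowerSeries ι O) * (X i * c)), neg_mem (Ideal.mul_mem_right _ _
      (Ideal.mem_span_singleton_self _)), ?_⟩
  rw [hc, one_pow]
  ring

omit [IsLocalRing O] in
/-- The level ideal and `p` contain a power of the ideal of the variables. -/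
theorem exists_pow_span_X_le (hpr : p.Prime) (n : ℕ) :
    ∃ K, Ideal.span (Set.range (X : ι → MvPowerSeries ι O)) ^ K ≤
      levelIdeal O p n ⊔ Ideal.span {(p : MvPowerSeries ι O)} := by
  refine Ideal.exists_pow_le_of_le_radical_of_fg ?_ (Submodule.fg_span (Set.finite_range _))
  rw [Ideal.span_le]
  rintro _ ⟨i, rfl⟩
  exact ⟨p ^ n, X_pow_mem_levelIdeal_sup hpr n i⟩

section Character

variable {V : Type*} [Fintype V] {r : ℕ} [NeZero p]

/-- The group of a level. -/
abbrev LevelGroup (V : Type*) (p r n : ℕ) :=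
  Multiplicative ((V → ZMod p) × (Fin r → ZMod (p ^ n)))

omit [IsLocalRing O] in
/-- Powers of an element with `x ^ m = 1` depend only on the exponent modulo `m`. -/
theorem pow_eq_of_mod_eq {R : Type*} [Monoid R] {x : R} {m : ℕ} (hx : x ^ m = 1) {a b : ℕ}
    (h : a % m = b % m) : x ^ a = x ^ b := by
  rw [← Nat.mod_add_div a m, ← Nat.mod_add_div b m, pow_add, pow_add, pow_mul, pow_mul, hx, h,
    one_pow, one_pow]

omit [Finite ι] [IsLocalRing O] [NeZero p] in
/-- Each `1 + y i` has `p ^ n`-th power one in the quotient of level `n`. -/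
theorem one_add_mk_pow (n : ℕ) (i : ι) :
    (1 + Ideal.Quotient.mk (levelIdeal (ι := ι) O p n) (X i)) ^ p ^ n = 1 := by
  rw [← map_one (Ideal.Quotient.mk (levelIdeal (ι := ι) O p n)), ← map_add, ← map_pow,
    ← sub_eq_zero, ← map_sub, Ideal.Quotient.eq_zero_iff_mem]
  exact Ideal.subset_span ⟨i, rfl⟩

/-- The character out of `LevelGroup`, into the quotient of `O[[y]]` of level `n`, given by `ζ` and
the `1 + y i`. -/
def levelChar {ζ : O} (hζ : ζ ^ p = 1) (n : ℕ) :
    LevelGroup V p r n →* MvPowerSeries (Fin r) O ⧸ levelIdeal O p n where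
  toFun δ :=
    (∏ v, algebraMap O (MvPowerSeries (Fin r) O ⧸ levelIdeal O p n) ζ ^ (δ.toAdd.1 v).val) *
      ∏ i, (1 + Ideal.Quotient.mk (levelIdeal O p n) (X i)) ^ (δ.toAdd.2 i).val
  map_one' := by simp
  map_mul' a b := by
    rw [mul_mul_mul_comm, ← Finset.prod_mul_distrib, ← Finset.prod_mul_distrib]
    congr 1
    · refine Finset.prod_congr rfl fun v _ => ?_
      rw [← pow_add]
      refine pow_eq_of_mod_eq (by rw [← map_pow, hζ, map_one]) (m := p) ?_
      rw [toAdd_mul, Prod.fst_add, Pi.add_apply, ZMod.val_add, Nat.mod_mod]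
    · refine Finset.prod_congr rfl fun i _ => ?_
      rw [← pow_add]
      refine pow_eq_of_mod_eq (one_add_mk_pow n i) ?_
      rw [toAdd_mul, Prod.snd_add, Pi.add_apply, ZMod.val_add, Nat.mod_mod]

omit [IsLocalRing O] in
/-- The character of a level on the generator at a place of `V` is given by powers of `ζ`. -/
theorem levelChar_apply_left [DecidableEq V] {ζ : O} (hζ : ζ ^ p = 1) (n : ℕ) (v : V) (c : ZMod p) :
    levelChar (r := r) hζ n (.ofAdd ((Pi.single v c : V → ZMod p), 0)) =
      algebraMap O (MvPowerSeries (Fin r) O ⧸ levelIdeal O p n) (ζ ^ c.val) := by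
  rw [levelChar, MonoidHom.coe_mk, OneHom.coe_mk, map_pow, Finset.prod_eq_single v]
  · simp
  · intro w _ hw
    simp [Pi.single_eq_of_ne hw]
  · simp

omit [IsLocalRing O] in
/-- The character of a level on the `i`-th further generator is given by powers of `1 + y i`. -/
theorem levelChar_apply_right {ζ : O} (hζ : ζ ^ p = 1) (n : ℕ) (i : Fin r) (c : ZMod (p ^ n)) :
    levelChar (V := V) hζ n (.ofAdd ((0 : V → ZMod p), Pi.single i c)) =
      (1 + Ideal.Quotient.mk (levelIdeal O p n) (X i)) ^ c.val := by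
  rw [levelChar, MonoidHom.coe_mk, OneHom.coe_mk, Finset.prod_eq_single (s := Finset.univ) i]
  · simp
  · intro w _ hw
    simp [Pi.single_eq_of_ne hw]
  · simp

end Character

variable [IsNoetherianRing O] [IsAdicComplete (maximalIdeal O) O]

/-- A level is finite over `O`. -/
theorem finite_quotient_levelIdeal (hpr : p.Prime) (hp : (p : O) ∈ maximalIdeal O) (n : ℕ) :
    Module.Finite O (MvPowerSeries ι O ⧸ levelIdeal O p n) := by
  classical
  set S := MvPowerSeries ι O
  set J := levelIdeal (ι := ι) O p n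
  set N := S ⧸ J
  have hle : (maximalIdeal O).map (algebraMap O N) ≤
      (maximalIdeal S).map (Ideal.Quotient.mk J) := by
    rw [Ideal.map_le_iff_le_comap]
    intro c hc
    refine Ideal.mem_map_of_mem (Ideal.Quotient.mk J) (x := (C c : S))
      ((IsLocalRing.mem_maximalIdeal _).mpr fun h =>
      (IsLocalRing.mem_maximalIdeal _).mp hc (by
        simpa using MvPowerSeries.isUnit_iff_constantCoeff.mp h))
  -- the level is separated for the `𝔪_O`-adic topology
  have : IsHausdorff (maximalIdeal O) N := by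
    refine ⟨fun x hx => ?_⟩
    refine (inferInstance : IsHausdorff (maximalIdeal S) N).haus _ fun K => ?_
    have hxK := hx K
    rw [SModEq.zero, Ideal.smul_top_eq_map, Submodule.restrictScalars_mem, Ideal.map_pow] at hxK ⊢
    rw [Ideal.Quotient.algebraMap_eq]
    exact Ideal.pow_right_mono hle K hxK
  -- modulo `p` the monomials of degree below some `K` span
  obtain ⟨K, hK⟩ := exists_pow_span_X_le (ι := ι) (O := O) hpr n
  let Q := N ⧸ (maximalIdeal O • ⊤ : Submodule O N)
  have hfin : {d : ι →₀ ℕ | d.degree < K}.Finite := Finsupp.finite_of_degree_lt K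
  have : Module.Finite O Q := by
    refine ⟨⟨hfin.toFinset.image fun d => Submodule.mkQ _
      (Ideal.Quotient.mk J (monomial d (1 : O))), eq_top_iff.mpr fun z _ => ?_⟩⟩
    obtain ⟨z, rfl⟩ := Submodule.mkQ_surjective _ z
    obtain ⟨f, rfl⟩ := Ideal.Quotient.mk_surjective z
    -- `f` differs from its truncation by an element of `J + (p)`
    set t := truncTotal K f with ht
    have hfp : f - (t : S) ∈ Ideal.span (Set.range (X : ι → S)) ^ K := by
      refine mem_pow_span_X (MvPolynomial.ext _ _ fun d => ?_)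
      rw [map_sub, MvPolynomial.coeff_sub, MvPolynomial.coeff_zero]
      by_cases hd : d.degree < K
      · rw [coeff_truncTotal _ hd, coeff_truncTotal _ hd, MvPolynomial.coeff_coe, ht,
          coeff_truncTotal _ hd, sub_self]
      · rw [coeff_truncTotal_eq_zero _ (not_lt.mp hd), coeff_truncTotal_eq_zero _ (not_lt.mp hd),
          sub_self]
    obtain ⟨u, hu, w, hw, huw⟩ := Submodule.mem_sup.mp (hK hfp)
    obtain ⟨w, rfl⟩ := Ideal.mem_span_singleton'.mp hw
    have hdiff : Submodule.mkQ (maximalIdeal O • ⊤ : Submodule O N) (Ideal.Quotient.mk J f) =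
        Submodule.mkQ _ (Ideal.Quotient.mk J (t : S)) := by
      rw [← sub_eq_zero, ← map_sub, Submodule.mkQ_apply, Submodule.Quotient.mk_eq_zero, ← map_sub,
        ← huw, map_add, Ideal.Quotient.eq_zero_iff_mem.mpr hu, zero_add, mul_comm, map_mul,
        map_natCast, ← map_natCast (algebraMap O N), ← Algebra.smul_def]
      exact Submodule.smul_mem_smul hp trivial
    have hsum : (t : S) = ∑ d ∈ t.support, t.coeff d • monomial d (1 : O) := by
      conv_lhs => rw [t.as_sum]
      rw [← MvPolynomial.coeToMvPowerSeries.ringHom_apply, map_sum]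
      refine Finset.sum_congr rfl fun d _ => ?_
      rw [MvPolynomial.coeToMvPowerSeries.ringHom_apply, MvPolynomial.coe_monomial, ← map_smul,
        smul_eq_mul, mul_one]
    rw [hdiff, hsum, map_sum, map_sum]
    refine Submodule.sum_mem _ fun d hd => ?_
    have hdK : d.degree < K := by
      by_contra hge
      exact MvPolynomial.mem_support_iff.mp hd (coeff_truncTotal_eq_zero _ (not_lt.mp hge))
    rw [← Ideal.Quotient.mkₐ_eq_mk O, map_smul, map_smul]
    exact Submodule.smul_mem _ _ (Submodule.subset_span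
      (Finset.mem_coe.mpr (Finset.mem_image.mpr ⟨d, hfin.mem_toFinset.mpr hdK, rfl⟩)))
  -- complete Nakayama
  exact finite_of_quotient (maximalIdeal O)

/-- Generation: a subspace of a finite free module over a level, stable under the variables and
containing the standard basis, is everything. -/
theorem eq_top_of_X_stable (hpr : p.Prime) (hp : (p : O) ∈ maximalIdeal O) (n : ℕ) {d : ℕ}
    (W : Submodule O (Fin d → MvPowerSeries ι O ⧸ levelIdeal O p n))
    (hX : ∀ i, ∀ x ∈ W, Ideal.Quotient.mk (levelIdeal (ι := ι) O p n) (X i) • x ∈ W)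
    (hb : ∀ j, (Pi.single j 1 : Fin d → MvPowerSeries ι O ⧸ levelIdeal O p n) ∈ W) : W = ⊤ := by
  classical
  let Q := MvPowerSeries ι O ⧸ levelIdeal (ι := ι) O p n
  let q : MvPowerSeries ι O →+* Q := Ideal.Quotient.mk (levelIdeal (ι := ι) O p n)
  have hfin := finite_quotient_levelIdeal (ι := ι) (O := O) hpr hp n
  -- `W` is stable under polynomials
  have hpol : ∀ (t : MvPolynomial ι O), ∀ x ∈ W, q (t : MvPowerSeries ι O) • x ∈ W := by
    intro t
    induction t using MvPolynomial.induction_on with
    | C c =>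
      intro x hx
      rw [MvPolynomial.coe_C, show q (C c : MvPowerSeries ι O) = algebraMap O (Q) c from rfl,
        algebraMap_smul]
      exact W.smul_mem c hx
    | add s t hs ht =>
      intro x hx
      rw [MvPolynomial.coe_add, map_add, add_smul]
      exact W.add_mem (hs x hx) (ht x hx)
    | mul_X t i ht =>
      intro x hx
      rw [MvPolynomial.coe_mul, MvPolynomial.coe_X, map_mul]
      convert ht _ (hX i x hx) using 1
      exact funext fun j => mul_assoc _ _ _
  -- by Nakayama it is enough to get everything modulo `p`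
  refine eq_top_iff.mpr (Submodule.le_of_le_smul_of_le_jacobson_bot Module.Finite.fg_top
    (maximalIdeal_le_jacobson _) fun x _ => ?_)
  obtain ⟨K, hK⟩ := exists_pow_span_X_le (ι := ι) (O := O) hpr n
  choose f hf using fun j => Ideal.Quotient.mk_surjective (x j)
  -- modulo `p` each coordinate is the image of a polynomial
  have key : ∀ j, ∃ u : Q, x j = q (truncTotal K (f j) : MvPowerSeries ι O) + (p : O) • u := by
    intro j
    have hfp : f j - (truncTotal K (f j) : MvPowerSeries ι O) ∈
      Ideal.span (Set.range (X : ι → MvPowerSeries ι O)) ^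
        K := by
      refine mem_pow_span_X (MvPolynomial.ext _ _ fun d => ?_)
      rw [map_sub, MvPolynomial.coeff_sub, MvPolynomial.coeff_zero]
      by_cases hd : d.degree < K
      · rw [coeff_truncTotal _ hd, coeff_truncTotal _ hd, MvPolynomial.coeff_coe,
          coeff_truncTotal _ hd, sub_self]
      · rw [coeff_truncTotal_eq_zero _ (not_lt.mp hd), coeff_truncTotal_eq_zero _ (not_lt.mp hd),
          sub_self]
    obtain ⟨u, hu, w, hw, huw⟩ := Submodule.mem_sup.mp (hK hfp)
    obtain ⟨w, rfl⟩ := Ideal.mem_span_singleton'.mp hw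
    refine ⟨q w, ?_⟩
    rw [← hf j, ← sub_eq_iff_eq_add', ← map_sub, ← huw, map_add,
      Ideal.Quotient.eq_zero_iff_mem.mpr hu, zero_add, map_mul, map_natCast,
      Nat.cast_smul_eq_nsmul, nsmul_eq_mul, mul_comm]
  choose u hu using key
  -- so a vector is a polynomial combination of the basis plus a multiple of `p`
  have hx : x = (∑ j, q (truncTotal K (f j) : MvPowerSeries ι O) •
      (Pi.single j 1 : Fin d → Q)) + (p : O) • u := by
    funext i
    rw [Pi.add_apply, Finset.sum_apply, Pi.smul_apply, Finset.sum_eq_single i]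
    · simp [hu i]
    · intro j _ hji
      simp [Pi.single_eq_of_ne hji.symm]
    · simp
  rw [hx]
  exact Submodule.add_mem_sup (W.sum_mem fun j _ => hpol _ _ (hb j))
    (Submodule.smul_mem_smul hp trivial)

end Fermat.Agent.RT.Assembly
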