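import Fermat.Agent.EC.Multiplicative.Rational
import Fermat.Agent.Mazur.Eisenstein.Unram
import Fermat.Agent.EC.Multiplicative.Count
import Fermat.Agent.EC.Reduction.Frey

/-!
# Ramification at multiplicative primes with component order prime to `n`

For a multiplicative prime `q` and an odd prime `n ≠ q` not dividing `v_q(Δ)`, inertia at `q`
moves an `n`-torsion point. The Frey curve is an example at `2` for `n = p`.
-/

set_option autoImplicit false

open WeierstrassCurve WeierstrassCurve.Affine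
open Fermat.Agent.EC.Reduction Fermat.Agent.EC.Multiplicative

namespace Fermat.Agent.RT.Assembly

local notation "Q̄" => AlgebraicClosure ℚ

/-- Inertia at a multiplicative prime `q` moves some `n`-torsion point, for an odd prime `n ≠ q` not
dividing `v_q(Δ)`. -/
theorem exists_inertia_moves_torsion {W : WeierstrassCurve ℤ} {A : ValuationSubring Q̄} {q : ℕ}
    (hA : A.LiesOverPrime q) (hq : q.Prime) (hΔ0 : W.Δ ≠ 0) (hΔ : (q : ℤ) ∣ W.Δ)
    (hc₄ : ¬ (q : ℤ) ∣ W.c₄) {n : ℕ} (hn : n.Prime) (hodd : Odd n) (hqn : q ≠ n)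
    (hnv : ¬ n ∣ padicValInt q W.Δ) :
    ∃ σ ∈ A.inertiaSubgroupIn ℚ, ∃ P : ((W.map (Int.castRingHom ℚ))⁄Q̄).Point,
      n • P = 0 ∧ σ • P ≠ P := by
  classical
  have : (W.map (Int.castRingHom ℚ)).IsElliptic :=
    (WeierstrassCurve.isElliptic_iff _).mpr (isUnit_iff_ne_zero.mpr (by
      rw [map_Δ]; simpa using hΔ0))
  -- the node of the reduction, and a torsion point reducing to it
  obtain ⟨N, hN⟩ := exists_node_int hA hq hΔ0 hΔ hc₄
  obtain ⟨P, hPn, hP0⟩ := N.exists_torsion_not_inE0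
    (valuation_natCast_eq_one hA hq fun h => hqn ((Nat.prime_dvd_prime_iff_eq hq hn).mp h))
    hn.one_lt (EC.Torsion.natCard_torsionBy_algebraicClosureRat
      (W.map (Int.castRingHom ℚ)) hn.ne_zero)
  by_contra hall
  push Not at hall
  match P, hP0, hPn with
  | .zero, hP0, _ => exact hP0 trivial
  | .some x y h, hP0, hPn =>
    have hP := (N.not_inE0_iff _).mp hP0
    obtain ⟨hbig, i, hi0, hin, hi⟩ := N.valuation_pow_of_nsmul hodd hP hPn
    -- if inertia fixed the `n`-torsion it would fix `x`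
    have hxfix : ∀ σ ∈ A.inertiaSubgroupIn ℚ, σ x = x := fun σ hσ => by
      obtain ⟨h'', e⟩ := smul_some (σ := σ) h
      exact ((Point.some.injEq ..).mp (e.symm.trans (hall σ hσ _ hPn))).1
    set e := padicValInt q W.Δ
    have hvq := valuation_q_lt_one hA
    -- the node is close to an integer `r`, so `v(x - r) = v(x - node)`
    obtain ⟨r, hr⟩ := exists_int_near_node hA hq hc₄ N e
    have hlt : A.valuation ((r : Q̄) - N.r) < A.valuation (x - N.r) := by
      refine hr.trans_lt (not_le.mp fun hle => ?_)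
      rw [hN] at hbig
      refine absurd (hbig.trans_le (pow_le_pow_left₀ zero_le hle 2)) (not_lt.mpr ?_)
      rw [sq]
      exact mul_le_of_le_one_left zero_le (pow_le_one₀ zero_le hvq.le)
    have heq : A.valuation (x - r) = A.valuation (x - N.r) := by
      rw [show x - (r : Q̄) = (x - N.r) - ((r : Q̄) - N.r) by ring,
        A.valuation.map_sub_eq_of_lt_left hlt]
    have hne : x - (r : Q̄) ≠ 0 := by
      intro e0
      rw [e0, map_zero] at heq
      rw [← heq] at hbig
      simp at hbig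
    -- an inertia-fixed element has integral order, forcing `n ∣ v(Δ)`
    obtain ⟨k, hk⟩ := Mazur.Eisenstein.exists_int_ordAt hA hq hne fun σ hσ => by
      rw [map_sub, hxfix σ hσ, map_intCast]
    rw [← heq, hN, ← pow_mul] at hi
    have hord := Mazur.Eisenstein.ordAt_eq hA hq hn.pos (x := x - (r : Q̄))
      (k := ((e * i : ℕ) : ℤ)) (by rw [zpow_natCast]; exact hi)
    rw [hk, eq_div_iff (by exact_mod_cast hn.ne_zero)] at hord
    have hint : k * (n : ℤ) = ((e * i : ℕ) : ℤ) := by exact_mod_cast hord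
    have hdvd : n ∣ e * i := Int.natCast_dvd_natCast.mp ⟨k, by rw [← hint, mul_comm]⟩
    rcases (hn.dvd_mul).mp hdvd with h1 | h1
    · exact hnv h1
    · exact absurd (Nat.le_of_dvd hi0 h1) (by omega)

/-- For the Frey curve, `p` does not divide `v₂(Δ)`, and `2` divides `Δ`. -/
theorem frey_padicValInt_two (P : FreyPackage) :
    (2 : ℤ) ∣ P.freyCurveInt.Δ ∧ ¬ P.p ∣ padicValInt 2 P.freyCurveInt.Δ := by
  have : Fact (Nat.Prime 2) := ⟨Nat.prime_two⟩
  have habc : (2 : ℤ) ∣ P.a * P.b * P.c :=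
    dvd_mul_of_dvd_left (dvd_mul_of_dvd_right
      ((ZMod.intCast_zmod_eq_zero_iff_dvd P.b 2).mp P.hb2) _) _
  have hv : padicValInt 2 (2 ^ 8 * P.freyCurveInt.Δ) =
      padicValInt 2 ((P.a * P.b * P.c) ^ (2 * P.p)) := by rw [Frey.Δ_eq P]
  have h8 : padicValInt 2 ((2 : ℤ) ^ 8) = 8 := by
    rw [show ((2 : ℤ) ^ 8) = ((2 ^ 8 : ℕ) : ℤ) by norm_num, padicValInt.of_nat,
      padicValNat.prime_pow]
  rw [padicValInt.mul (by norm_num) (Frey.Δ_ne_zero P), h8] at hv
  have hpow : ∀ m : ℕ, padicValInt 2 ((P.a * P.b * P.c) ^ m) =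
      m * padicValInt 2 (P.a * P.b * P.c) := by
    intro m
    induction m with
    | zero => simp
    | succ m ih => rw [pow_succ, padicValInt.mul (pow_ne_zero _ P.habc0) P.habc0, ih,
      add_mul, one_mul]
  rw [hpow] at hv
  have hpos : 0 < padicValInt 2 (P.a * P.b * P.c) :=
    Nat.pos_of_ne_zero fun h0 => by
      rcases padicValInt.eq_zero_iff.mp h0 with h | h | h
      · exact absurd h (by norm_num)
      · exact P.habc0 h
      · exact h habc
  have hp5 := P.hp5
  refine ⟨by_contra fun hd => ?_, fun hd => ?_⟩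
  · rw [padicValInt.eq_zero_of_not_dvd hd, add_zero] at hv
    nlinarith
  · have h8' : P.p ∣ 8 + padicValInt 2 P.freyCurveInt.Δ :=
      hv ▸ dvd_mul_of_dvd_left (dvd_mul_left _ _) _
    have h2 : P.p ∣ 2 ^ 3 := by norm_num; exact (Nat.dvd_add_left hd).mp h8'
    have := (Nat.prime_dvd_prime_iff_eq P.pp Nat.prime_two).mp (P.pp.dvd_of_dvd_pow h2)
    omega

/-- Inertia at `2` moves a `p`-torsion point of the Frey curve. -/
theorem frey_exists_inertia_moves (P : FreyPackage) {A : ValuationSubring Q̄}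
    (hA : A.LiesOverPrime 2) :
    ∃ σ ∈ A.inertiaSubgroupIn ℚ, ∃ Q : ((P.freyCurveInt.map (Int.castRingHom ℚ))⁄Q̄).Point,
      P.p • Q = 0 ∧ σ • Q ≠ Q := by
  obtain ⟨h2, hv⟩ := frey_padicValInt_two P
  have habc : ((2 : ℕ) : ℤ) ∣ P.a * P.b * P.c :=
    dvd_mul_of_dvd_left (dvd_mul_of_dvd_right
      ((ZMod.intCast_zmod_eq_zero_iff_dvd P.b 2).mp P.hb2) _) _
  exact exists_inertia_moves_torsion hA Nat.prime_two (Frey.Δ_ne_zero P) h2
    (Frey.not_dvd_c₄ P Nat.prime_two habc) P.pp P.hp_odd (by have := P.hp5; omega) hv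

end Fermat.Agent.RT.Assembly
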