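import Fermat.Agent.EC.Rep.Tame
import Fermat.Agent.Mazur.Eisenstein.CycInertia
import Fermat.Agent.Arith.Minkowski
import Fermat.Agent.Arith.Frobenius

/-!
# Tame inertia at a prime `v ≠ p`

An inertia element with trivial tame characters dies in every finite quotient of order prime to
`v`; the commutation with a Frobenius; an additive character of finite level on inertia with
values in `ℤ/p`, `p ≠ v`, is determined by one element moving a `p`-th root of a uniformiser.

See `eq_one_of_tameTrivial`, `eq_zero_of_apply_eq_zero` and `exists_inertia_uniformiser`.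
-/

set_option autoImplicit false

noncomputable section

namespace Fermat.Agent.RT.Assembly

open Fermat.Agent.Arith Fermat.Agent.EC.Rep Fermat.Agent.EC.Reduction
open scoped Pointwise

variable {A : ValuationSubring QBar} {v : ℕ} {σ τ φ : GQ}

/-! ## Trivial tame characters -/

/-- The tame characters of an inertia element are trivial. -/
def TameTrivial (A : ValuationSubring QBar) (ν : GQ) : Prop :=
  ∀ z : QBar, z ≠ 0 → res A (ν z / z) = 1

/-- An inertia element with trivial tame characters dies in a finite quotient as soon as a power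
prime to `v` does. -/
theorem eq_one_of_tameTrivial {M : Type} [Monoid M] (ρ : GQ →* M)
    (hρ : ∃ L : IntermediateField ℚ QBar, FiniteDimensional ℚ L ∧
      ∀ σ : GQ, (∀ x ∈ L, σ x = x) → ρ σ = 1)
    (hA : A.LiesOverPrime v) (hv : v.Prime) {ν : GQ} (hν : ν ∈ A.inertiaSubgroupIn ℚ)
    (htriv : TameTrivial A ν) {n : ℕ} (hn : ¬ v ∣ n) (hpow : ρ ν ^ n = 1) : ρ ν = 1 := by
  obtain ⟨L, hL, hL'⟩ := hρ
  have hopen := isOpen_galKer_of_fixing L hL'
  have hfix : (IntermediateField.fixedField (galKer ρ)).fixingSubgroup = galKer ρ :=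
    InfiniteGalois.fixingSubgroup_fixedField ⟨galKer ρ, (galKer ρ).isClosed_of_isOpen hopen⟩
  rw [← mem_galKer, ← hfix, IntermediateField.mem_fixingSubgroup_iff]
  exact fun y hy => apply_eq_self_of_res_eq_one hA hv hν htriv hn
    (hy ⟨ν ^ n, mem_galKer.mpr (by rw [map_pow, hpow])⟩)

theorem res_apply_div_self_of_valuation_eq (hσ : σ ∈ A.inertiaSubgroupIn ℚ) {w z : QBar}
    (hw : w ≠ 0) (hz : z ≠ 0) (h : A.valuation w = A.valuation z) :
    res A (σ w / w) = res A (σ z / z) := by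
  have hv1 : A.valuation (w / z) = 1 := by
    rw [map_div₀, h, div_self (A.valuation.ne_zero_iff.mpr hz)]
  have hwz : w / z ∈ A := (A.valuation_le_one_iff _).mp hv1.le
  have hwz' : z / w ∈ A := (A.valuation_le_one_iff _).mp (by
    rw [map_div₀, h, div_self (A.valuation.ne_zero_iff.mpr hz)])
  have e : res A (w / z) * res A (z / w) = 1 := by
    rw [← res_mul hwz hwz', div_mul_div_cancel₀ hz, div_self hw, res_one]
  obtain ⟨h1, h2⟩ := EC.AtP.res_inertia hσ hwz
  have hq : σ w / w = σ z / z * (σ (w / z) * (z / w)) := by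
    have : σ z ≠ 0 := (map_ne_zero σ).mpr hz
    rw [map_div₀]
    field_simp
  rw [hq, res_mul (apply_div_self_mem hσ hz).1 (mul_mem h1 hwz'), res_mul h1 hwz', h2, e, mul_one]

/-- Conjugation by a Frobenius raises the tame characters to the `v`-th power. -/
theorem tameTrivial_frobenius_conj (hφ : A.IsFrobeniusAt φ v)
    (hσ : σ ∈ A.inertiaSubgroupIn ℚ) :
    φ * σ * φ⁻¹ * (σ ^ v)⁻¹ ∈ A.inertiaSubgroupIn ℚ ∧
      TameTrivial A (φ * σ * φ⁻¹ * (σ ^ v)⁻¹) := by
  obtain ⟨hφA, hφ'⟩ := isFrobeniusAt_iff_forall_mem.mp hφ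
  have hconj : φ * σ * φ⁻¹ ∈ A.inertiaSubgroupIn ℚ := by
    refine mem_inertia_iff_forall_mem.mpr ?_
    obtain ⟨hσA, hσ'⟩ := mem_inertia_iff_forall_mem.mp hσ
    have hφi : φ⁻¹ • A = A := inv_smul_eq_iff.mpr hφA.symm
    refine ⟨by rw [mul_smul, mul_smul, hφi, hσA, hφA], fun x hx => ?_⟩
    have h1 := smul_mem_nonunits_smul_iff (g := φ) (A := A) |>.mpr
      (hσ' _ (map_mem_of_mem_decomposition hφi hx))
    rw [hφA, AlgEquiv.smul_def, map_sub, ← AlgEquiv.mul_apply φ φ⁻¹, mul_inv_cancel,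
      AlgEquiv.one_apply] at h1
    rw [AlgEquiv.mul_apply, AlgEquiv.mul_apply]
    exact h1
  refine ⟨mul_mem hconj (inv_mem (pow_mem hσ v)), fun z hz => ?_⟩
  rw [res_apply_mul_div_self hconj (inv_mem (pow_mem hσ v)) hz,
    res_apply_inv_div_self (pow_mem hσ v) hz, res_pow_apply_div_self hσ hz]
  set w := φ⁻¹ z with hw
  have hw0 : w ≠ 0 := (map_ne_zero (φ⁻¹ : GQ)).mpr hz
  have hzw : φ w = z := by rw [hw, ← AlgEquiv.mul_apply, mul_inv_cancel, AlgEquiv.one_apply]
  have e1 : (φ * σ * φ⁻¹) z / z = φ (σ w / w) := by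
    rw [map_div₀, hzw, AlgEquiv.mul_apply, AlgEquiv.mul_apply, hw]
  have hm := (apply_div_self_mem hσ hw0).1
  have e2 : res A (φ (σ w / w)) = res A (σ w / w) ^ v := by
    have h := res_eq_zero (hφ' _ hm)
    rwa [res_sub (map_mem_of_mem_decomposition hφA hm) (pow_mem hm v), sub_eq_zero,
      res_pow hm] at h
  have hval : A.valuation w = A.valuation z := by
    rw [← hzw, EC.Multiplicative.valuation_map_eq hφA]
  rw [e1, e2, res_apply_div_self_of_valuation_eq hσ hw0 hz hval,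
    mul_inv_cancel₀ (pow_ne_zero _ (apply_div_self_mem hσ hz).2)]

/-! ## Kummer eigenvectors of additive characters -/

/-- The Lagrange resolvents of `y` under `τ` with `τ ^ p` fixing `y`: one of them, of index prime to
`p`, is nonzero when `τ` moves `y`. -/
private theorem exists_resolvent {p : ℕ} (hp : p.Prime) {ω : QBar} (hω : IsPrimitiveRoot ω p)
    (hωτ : τ ω = ω) {y : QBar} (hyp : (τ ^ p) y = y) (hτy : τ y ≠ y) :
    ∃ j, j < p ∧ j ≠ 0 ∧ (∑ i ∈ Finset.range p, ω ^ (j * i) * (τ ^ i) y) ≠ 0 ∧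
      ω ^ j * τ (∑ i ∈ Finset.range p, ω ^ (j * i) * (τ ^ i) y) =
        ∑ i ∈ Finset.range p, ω ^ (j * i) * (τ ^ i) y := by
  let zr : ℕ → QBar := fun j => ∑ i ∈ Finset.range p, ω ^ (j * i) * (τ ^ i) y
  have hzτ : ∀ j, ω ^ j * τ (zr j) = zr j := by
    intro j
    have hstep : ∀ i, ω ^ j * τ (ω ^ (j * i) * (τ ^ i) y) = ω ^ (j * (i + 1)) * (τ ^ (i + 1)) y :=
      fun i => by
        rw [map_mul, map_pow, hωτ, pow_succ' τ, AlgEquiv.mul_apply, mul_add, mul_one,
          pow_add]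
        ring
    show ω ^ j * τ (∑ i ∈ Finset.range p, _) = _
    rw [map_sum, Finset.mul_sum, Finset.sum_congr rfl fun i _ => hstep i]
    refine add_right_cancel (b := ω ^ (j * 0) * (τ ^ 0) y) ?_
    rw [← Finset.sum_range_succ' (fun i => ω ^ (j * i) * (τ ^ i) y) p, Finset.sum_range_succ,
      hyp, mul_comm j p, pow_mul, hω.pow_eq_one, one_pow]
    simp [zr]
  obtain ⟨j, hjp, hj0, hzj⟩ : ∃ j, j < p ∧ j ≠ 0 ∧ zr j ≠ 0 := by
    by_contra hall
    push Not at hall
    have hsum : ∑ j ∈ Finset.range p, zr j = p * y := by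
      rw [Finset.sum_comm, Finset.sum_eq_single 0]
      · simp
      · intro i hi hi0
        have hne1 : ω ^ i ≠ 1 := hω.pow_ne_one_of_pos_of_lt hi0 (Finset.mem_range.mp hi)
        have hgeo : ∑ x ∈ Finset.range p, ω ^ (x * i) = 0 := by
          have h := geom_sum_mul (ω ^ i) p
          rw [pow_right_comm, hω.pow_eq_one, one_pow, sub_self] at h
          simpa [← pow_mul, mul_comm] using (mul_eq_zero.mp h).resolve_right (sub_ne_zero.mpr hne1)
        rw [← Finset.sum_mul, hgeo, zero_mul]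
      · simp [hp.pos]
    rw [Finset.sum_eq_single 0 (fun j hj hj0 => hall j (Finset.mem_range.mp hj) hj0)
      (by simp [hp.pos])] at hsum
    have h0 := hzτ 0
    rw [pow_zero, one_mul, hsum, map_mul, map_natCast] at h0
    exact hτy (mul_left_cancel₀ (Nat.cast_ne_zero.mpr hp.ne_zero) h0)
  exact ⟨j, hjp, hj0, hzj, hzτ j⟩

/-- Nonzero elements of the same order at `v` have the same valuation. -/
private theorem valuation_eq_of_ordAt_eq (hA : A.LiesOverPrime v) (hv : v.Prime) {x y : QBar}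
    (hx : x ≠ 0) (hy : y ≠ 0)
    (h : Mazur.Eisenstein.ordAt A v x = Mazur.Eisenstein.ordAt A v y) :
    A.valuation x = A.valuation y := by
  have := (Mazur.Eisenstein.ordAt_eq_zero_iff hA hv (div_ne_zero hx hy)).mp (by
    rw [Mazur.Eisenstein.ordAt_div hA hv hx hy, h, sub_self])
  rwa [Mazur.Eisenstein.IsUnitAt, map_div₀, div_eq_one_iff_eq (A.valuation.ne_zero_iff.mpr hy)]
    at this

/-- The reduction of `g x / x` is multiplicative in integral powers of `x`. -/
private theorem res_zpow_apply_div_self {g : GQ} (hg : g ∈ A.inertiaSubgroupIn ℚ) {x : QBar}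
    (hx : x ≠ 0) (e : ℤ) : res A (g (x ^ e) / x ^ e) = res A (g x / x) ^ e := by
  obtain ⟨hm, hm0⟩ := apply_div_self_mem hg hx
  have hmi : (g x / x)⁻¹ ∈ A := by
    have hv1 : A.valuation (g x / x) = 1 := by
      rw [map_div₀, EC.Multiplicative.valuation_map_eq (mem_inertia_iff_forall_mem.mp hg).1,
        div_self (A.valuation.ne_zero_iff.mpr hx)]
    exact (A.valuation_le_one_iff _).mp (by rw [map_inv₀, hv1, inv_one])
  rw [map_zpow₀, ← div_zpow]
  obtain ⟨n, rfl | rfl⟩ := e.eq_nat_or_neg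
  · rw [zpow_natCast, zpow_natCast, res_pow hm]
  · have hu : res A (g x / x) * res A (g x / x)⁻¹ = 1 := by
      rw [← res_mul hm hmi, mul_inv_cancel₀ (div_ne_zero ((map_ne_zero g).mpr hx) hx), res_one]
    rw [zpow_neg, zpow_neg, zpow_natCast, zpow_natCast, ← inv_pow, ← inv_pow, res_pow hmi,
      eq_inv_of_mul_eq_one_right hu]

/-- An additive character takes `g ^ j` to `j c g`. -/
private theorem char_pow {p : ℕ} {c : GQ → ZMod p}
    (hc : ∀ g ∈ A.inertiaSubgroupIn ℚ, ∀ h ∈ A.inertiaSubgroupIn ℚ, c (g * h) = c g + c h) {g : GQ}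
    (hg : g ∈ A.inertiaSubgroupIn ℚ) (j : ℕ) : c (g ^ j) = j * c g := by
  induction j with
  | zero =>
    have := hc 1 (one_mem _) 1 (one_mem _)
    rw [one_mul, left_eq_add] at this
    simpa using this
  | succ j ih => rw [pow_succ, hc _ (pow_mem hg j) _ hg, ih]; push_cast; ring

/-- An additive character takes inverses to negatives. -/
private theorem char_inv {p : ℕ} {c : GQ → ZMod p}
    (hc : ∀ g ∈ A.inertiaSubgroupIn ℚ, ∀ h ∈ A.inertiaSubgroupIn ℚ, c (g * h) = c g + c h) {g : GQ}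
    (hg : g ∈ A.inertiaSubgroupIn ℚ) : c g⁻¹ = -c g := by
  have := hc g hg g⁻¹ (inv_mem hg)
  rw [mul_inv_cancel, ← pow_zero g, char_pow hc hg, Nat.cast_zero, zero_mul] at this
  linear_combination -this

/-- An element fixed by every inertia element annihilated by an additive character of finite level
and moved by any inertia element which is not. -/
private theorem exists_fixed_moved {p : ℕ} (c : GQ → ZMod p)
    (hc : ∀ g ∈ A.inertiaSubgroupIn ℚ, ∀ h ∈ A.inertiaSubgroupIn ℚ, c (g * h) = c g + c h)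
    (hcfin : ∃ L : IntermediateField ℚ QBar, FiniteDimensional ℚ L ∧
      ∀ g : GQ, (∀ x ∈ L, g x = x) → c g = 0)
    (hτ : τ ∈ A.inertiaSubgroupIn ℚ) (hτ1 : c τ ≠ 0) :
    ∃ y, (∀ g ∈ A.inertiaSubgroupIn ℚ, c g = 0 → g y = y) ∧ τ y ≠ y := by
  obtain ⟨L, hL, hL'⟩ := hcfin
  let N : IntermediateField ℚ QBar := IntermediateField.normalClosure ℚ L QBar
  have : Normal ℚ N := normalClosure.normal ℚ L QBar
  have hN' : ∀ g ∈ N.fixingSubgroup, c g = 0 := fun g hg => hL' g fun x hx =>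
    (IntermediateField.mem_fixingSubgroup_iff _ _).mp hg x (L.le_normalClosure hx)
  have hc1 : c 1 = 0 := hN' 1 (one_mem _)
  let H₀ : Subgroup GQ :=
    { carrier := {g | g ∈ A.inertiaSubgroupIn ℚ ∧ c g = 0}
      mul_mem' := fun {g h} hg hh =>
        ⟨mul_mem hg.1 hh.1, by rw [hc _ hg.1 _ hh.1, hg.2, hh.2, add_zero]⟩
      one_mem' := ⟨one_mem _, hc1⟩
      inv_mem' := fun {g} hg => ⟨inv_mem hg.1, by rw [char_inv hc hg.1, hg.2, neg_zero]⟩ }
  let H := H₀ ⊔ N.fixingSubgroup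
  have : IsGalois ℚ N := IsGalois.mk
  have hnorm : N.fixingSubgroup.Normal := (InfiniteGalois.normal_iff_isGalois N).mpr inferInstance
  have hHmem : ∀ g ∈ A.inertiaSubgroupIn ℚ, g ∈ H → c g = 0 := by
    intro g hg hgH
    have hgH' : g ∈ (H₀ : Set GQ) * (N.fixingSubgroup : Set GQ) :=
      (Subgroup.mul_normal H₀ N.fixingSubgroup) ▸ hgH
    obtain ⟨h, hh, f, hf, rfl⟩ := Set.mem_mul.mp hgH'
    have hfI : f ∈ A.inertiaSubgroupIn ℚ := by
      simpa using mul_mem (inv_mem hh.1) hg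
    rw [hc _ hh.1 _ hfI, hh.2, hN' f hf, add_zero]
  have hopen : IsOpen (H : Set GQ) :=
    Subgroup.isOpen_mono le_sup_right (IntermediateField.fixingSubgroup_isOpen N)
  have hfixH : (IntermediateField.fixedField H).fixingSubgroup = H :=
    InfiniteGalois.fixingSubgroup_fixedField ⟨H, H.isClosed_of_isOpen hopen⟩
  obtain ⟨y, hy, hτy⟩ : ∃ y ∈ IntermediateField.fixedField H, τ y ≠ y := by
    by_contra hall
    push Not at hall
    have : τ ∈ H := hfixH ▸ (IntermediateField.mem_fixingSubgroup_iff _ _).mpr hall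
    exact hτ1 (hHmem τ hτ this)
  exact ⟨y, fun g hg hg0 => hy ⟨g, Subgroup.mem_sup_left ⟨hg, hg0⟩⟩, hτy⟩

/-- A Kummer eigenvector: some `z ≠ 0` on which inertia acts by a nontrivial power of the
character. -/
private theorem exists_eigenvector {p : ℕ} (hp : p.Prime) {c : GQ → ZMod p}
    (hc : ∀ g ∈ A.inertiaSubgroupIn ℚ, ∀ h ∈ A.inertiaSubgroupIn ℚ, c (g * h) = c g + c h)
    (hcfin : ∃ L : IntermediateField ℚ QBar, FiniteDimensional ℚ L ∧
      ∀ g : GQ, (∀ x ∈ L, g x = x) → c g = 0)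
    (hτ : τ ∈ A.inertiaSubgroupIn ℚ) (hτ1 : c τ = 1) {ω : QBar} (hω : IsPrimitiveRoot ω p)
    (hωI : ∀ g ∈ A.inertiaSubgroupIn ℚ, g ω = ω) :
    ∃ (z : QBar) (j : ℕ), j < p ∧ j ≠ 0 ∧ z ≠ 0 ∧
      ∀ g ∈ A.inertiaSubgroupIn ℚ, ω ^ (j * (c g).val) * g z = z := by
  have := Fact.mk hp
  -- `y` is fixed by the kernel of `c` and moved by `τ`
  obtain ⟨y, hfixy, hτy⟩ := exists_fixed_moved c hc hcfin hτ (hτ1 ▸ one_ne_zero)
  have hcpow : ∀ j : ℕ, c (τ ^ j) = j := fun j => by rw [char_pow hc hτ, hτ1, mul_one]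
  have hyp : (τ ^ p) y = y := hfixy _ (pow_mem hτ p) (by rw [hcpow, ZMod.natCast_self])
  -- a Lagrange resolvent of `y` on which `τ` acts by a nontrivial root of unity
  obtain ⟨j, hjp, hj0, hzj, hzτ⟩ := exists_resolvent hp hω (hωI τ hτ) hyp hτy
  let zr : ℕ → QBar := fun j => ∑ i ∈ Finset.range p, ω ^ (j * i) * (τ ^ i) y
  change zr j ≠ 0 at hzj
  change ω ^ j * τ (zr j) = zr j at hzτ
  have hzg : ∀ g ∈ A.inertiaSubgroupIn ℚ, ω ^ (j * (c g).val) * g (zr j) = zr j := by
    intro g hg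
    set i := (c g).val
    -- `g` is `τ ^ i` times an element of the kernel, which fixes the resolvent
    have hh : (τ ^ i)⁻¹ * g ∈ A.inertiaSubgroupIn ℚ ∧ c ((τ ^ i)⁻¹ * g) = 0 :=
      ⟨mul_mem (inv_mem (pow_mem hτ i)) hg, by
        rw [hc _ (inv_mem (pow_mem hτ i)) _ hg, char_inv hc (pow_mem hτ i), hcpow,
          ZMod.natCast_zmod_val, neg_add_cancel]⟩
    have hhz : ((τ ^ i)⁻¹ * g) (zr j) = zr j := by
      show ((τ ^ i)⁻¹ * g) (∑ l ∈ Finset.range p, _) = _
      rw [map_sum]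
      refine Finset.sum_congr rfl fun l _ => ?_
      rw [map_mul, map_pow, hωI _ hh.1]
      congr 1
      have hh' := hfixy ((τ ^ l)⁻¹ * ((τ ^ i)⁻¹ * g) * τ ^ l)
        (mul_mem (mul_mem (inv_mem (pow_mem hτ l)) hh.1) (pow_mem hτ l))
        (by rw [hc _ (mul_mem (inv_mem (pow_mem hτ l)) hh.1) _ (pow_mem hτ l),
          hc _ (inv_mem (pow_mem hτ l)) _ hh.1, char_inv hc (pow_mem hτ l), hh.2]; ring)
      calc ((τ ^ i)⁻¹ * g) ((τ ^ l) y)
          = (τ ^ l * ((τ ^ l)⁻¹ * ((τ ^ i)⁻¹ * g) * τ ^ l)) y := by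
            rw [← AlgEquiv.mul_apply]; congr 1; group
        _ = (τ ^ l) y := by rw [AlgEquiv.mul_apply, hh']
    -- and `τ ^ i` scales the resolvent by `ω ^ (-j i)`
    have hτi : ∀ i : ℕ, ω ^ (j * i) * (τ ^ i) (zr j) = zr j := by
      intro i
      induction i with
      | zero => simp
      | succ i ih =>
        calc ω ^ (j * (i + 1)) * (τ ^ (i + 1)) (zr j)
            = ω ^ j * τ (ω ^ (j * i) * (τ ^ i) (zr j)) := by
              rw [map_mul, map_pow, hωI τ hτ, pow_succ' τ, AlgEquiv.mul_apply, mul_add, mul_one,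
                pow_add]
              ring
          _ = zr j := by rw [ih, hzτ]
    calc ω ^ (j * i) * g (zr j) = ω ^ (j * i) * (τ ^ i) (((τ ^ i)⁻¹ * g) (zr j)) := by
          rw [← AlgEquiv.mul_apply, mul_inv_cancel_left]
      _ = zr j := by rw [hhz, hτi]
  exact ⟨zr j, j, hjp, hj0, hzj, hzg⟩

/-- If `σ` fixes `z` and `k` times the order of `π` is `m` times that of `z`, then the tame
character of `σ` at `π` is killed by `k`. -/
private theorem res_pow_eq_one_of_ordAt (hA : A.LiesOverPrime v) (hv : v.Prime)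
    (hσ : σ ∈ A.inertiaSubgroupIn ℚ) {π z : QBar} (hπ : π ≠ 0) (hz : z ≠ 0) (hσz : σ z = z)
    {m k : ℤ} (h : (k : ℚ) * Mazur.Eisenstein.ordAt A v π = m * Mazur.Eisenstein.ordAt A v z) :
    res A (σ π / π) ^ k = 1 := by
  have e : A.valuation (π ^ k) = A.valuation (z ^ m) :=
    valuation_eq_of_ordAt_eq hA hv (zpow_ne_zero k hπ) (zpow_ne_zero m hz) (by
      rw [Mazur.Eisenstein.ordAt_zpow hA hv hπ, Mazur.Eisenstein.ordAt_zpow hA hv hz, h])
  rw [← res_zpow_apply_div_self hσ hπ k, res_apply_div_self_of_valuation_eq hσ (zpow_ne_zero k hπ)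
    (zpow_ne_zero m hz) e, map_zpow₀, hσz, div_self (zpow_ne_zero m hz), res_one]

/-- A field element `x ≠ 1` with `x ^ p = 1` has `x ^ k = 1` only if `p` divides `k`. -/
private theorem dvd_of_zpow_eq_one {F : Type*} [Field F] {p : ℕ} (hp : p.Prime) {x : F}
    (hx : x ≠ 1) (hxp : x ^ p = 1) {k : ℤ} (hxk : x ^ k = 1) : (p : ℤ) ∣ k := by
  have hu : IsUnit x := IsUnit.of_pow_eq_one hxp hp.ne_zero
  have hord : orderOf x = p := @orderOf_eq_prime _ _ _ _ ⟨hp⟩ hxp hx
  rw [← hord, ← IsUnit.unit_spec hu, orderOf_units]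
  exact orderOf_dvd_iff_zpow_eq_one.mpr
    (Units.ext (by rw [Units.val_zpow_eq_zpow_val, IsUnit.unit_spec, hxk, Units.val_one]))

/-- The tame characters are trivial on elements of integral order. -/
private theorem res_apply_div_self_eq_one_of_ordAt (hA : A.LiesOverPrime v) (hv : v.Prime)
    (hτ : τ ∈ A.inertiaSubgroupIn ℚ) {z : QBar} (hz : z ≠ 0) {a : ℤ}
    (ha : Mazur.Eisenstein.ordAt A v z = a) : res A (τ z / z) = 1 := by
  have hv0 : (v : QBar) ≠ 0 := Nat.cast_ne_zero.mpr hv.ne_zero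
  have hval : A.valuation z = A.valuation ((v : QBar) ^ a) :=
    valuation_eq_of_ordAt_eq hA hv hz (zpow_ne_zero a hv0) (by
      rw [Mazur.Eisenstein.ordAt_prime_zpow hA hv, ha])
  rw [res_apply_div_self_of_valuation_eq hτ hz (zpow_ne_zero a hv0) hval, map_zpow₀, map_natCast,
    div_self (zpow_ne_zero a hv0), res_one]

/-! ## Additive characters on inertia -/

/-- An additive character of finite level of inertia at `v ≠ p` with values in `ℤ/p`, vanishing at
an element moving a `p`-th root of a uniformiser, vanishes. -/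
theorem eq_zero_of_apply_eq_zero {p : ℕ} (hp : p.Prime) (hA : A.LiesOverPrime v) (hv : v.Prime)
    (hvp : v ≠ p) (c : GQ → ZMod p)
    (hc : ∀ g ∈ A.inertiaSubgroupIn ℚ, ∀ h ∈ A.inertiaSubgroupIn ℚ, c (g * h) = c g + c h)
    (hcfin : ∃ L : IntermediateField ℚ QBar, FiniteDimensional ℚ L ∧
      ∀ g : GQ, (∀ x ∈ L, g x = x) → c g = 0)
    (hσ : σ ∈ A.inertiaSubgroupIn ℚ) {π : QBar} (hπ : π ≠ 0) {m : ℤ}
    (hπord : Mazur.Eisenstein.ordAt A v π = m / p)
    (hπσ : res A (σ π / π) ≠ 1) (hπσp : res A (σ π / π) ^ p = 1) (hcσ : c σ = 0) :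
    ∀ g ∈ A.inertiaSubgroupIn ℚ, c g = 0 := by
  classical
  have := Fact.mk hp
  intro τ₀ hτ₀
  by_contra hne
  obtain ⟨τ, hτ, hτ1⟩ : ∃ τ ∈ A.inertiaSubgroupIn ℚ, c τ = 1 :=
    ⟨τ₀ ^ (c τ₀)⁻¹.val, pow_mem hτ₀ _, by
      rw [char_pow hc hτ₀, ZMod.natCast_zmod_val, inv_mul_cancel₀ hne]⟩
  have : NeZero p := ⟨hp.ne_zero⟩
  obtain ⟨ω, hω⟩ := HasEnoughRootsOfUnity.exists_primitiveRoot QBar p
  have hωI : ∀ g ∈ A.inertiaSubgroupIn ℚ, g ω = ω := fun g hg => inertia_root hA hv hg hω.pow_eq_one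
    fun h => hvp ((Nat.prime_dvd_prime_iff_eq hv hp).mp h)
  obtain ⟨z, j, hjp, hj0, hz, hzg⟩ := exists_eigenvector hp hc hcfin hτ hτ1 hω hωI
  have hzfix : ∀ g ∈ A.inertiaSubgroupIn ℚ, g (z ^ p) = z ^ p := by
    intro g hg
    conv_rhs => rw [← hzg g hg, mul_pow, pow_right_comm, hω.pow_eq_one, one_pow, one_mul]
    exact map_pow g _ p
  obtain ⟨k, hk⟩ := Mazur.Eisenstein.exists_int_ordAt hA hv (pow_ne_zero p hz) hzfix
  rw [Mazur.Eisenstein.ordAt_pow hA hv hz] at hk
  have hp0 : (p : ℚ) ≠ 0 := Nat.cast_ne_zero.mpr hp.ne_zero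
  -- the two roots have commensurable valuations
  obtain ⟨a, ha⟩ : (p : ℤ) ∣ k := dvd_of_zpow_eq_one hp hπσ hπσp
    (res_pow_eq_one_of_ordAt hA hv hσ hπ hz (by simpa [hcσ] using hzg σ hσ) (m := m) (by
      rw [hπord]
      field_simp
      linear_combination -(m : ℚ) * hk))
  have h2 : res A (τ z / z) = 1 :=
    res_apply_div_self_eq_one_of_ordAt hA hv hτ hz (a := a) (mul_left_cancel₀ hp0 (by
      rw [hk, ha]; push_cast; ring))
  have hzτ : ω ^ j * τ z = z := by simpa [hτ1, ZMod.val_one] using hzg τ hτ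
  have hωj : ω ^ j ∈ A := pow_mem (mem_of_isIntegral A (hω.isIntegral hp.pos)) j
  have h3 : res A (ω ^ j) = 1 := by
    have e : ω ^ j * (τ z / z) = 1 := by
      rw [← mul_div_assoc, hzτ, div_self hz]
    have := congrArg (res A) e
    rwa [res_mul hωj (apply_div_self_mem hτ hz).1, h2, mul_one, res_one] at this
  refine hω.pow_ne_one_of_pos_of_lt hj0 hjp
    (root_congr hA hv (m := p) (by rw [pow_right_comm, hω.pow_eq_one, one_pow]) (one_pow p)
      (fun h => hvp ((Nat.prime_dvd_prime_iff_eq hv hp).mp h)) ?_)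
  exact (res_eq_zero_iff (sub_mem hωj A.one_mem)).mp (by rw [res_sub hωj A.one_mem, h3, res_one,
    sub_self])

/-- A primitive inertia element at `v` and its `p`-th root of a uniformiser. -/
theorem exists_inertia_uniformiser {p : ℕ} (hp : p.Prime) (hA : A.LiesOverPrime v) (hv : v.Prime)
    (hpv : p ∣ v - 1) :
    ∃ (σ : GQ) (a : (ZMod v)ˣ) (π : QBar) (m : ℤ), σ ∈ A.inertiaSubgroupIn ℚ ∧
      (∀ μ : QBar, μ ^ v = 1 → σ μ = μ ^ (a : ZMod v).val) ∧ orderOf a = v - 1 ∧ π ≠ 0 ∧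
      Mazur.Eisenstein.ordAt A v π = m / p ∧ res A (σ π / π) ≠ 1 ∧ res A (σ π / π) ^ p = 1 := by
  have := Fact.mk hv
  have := residueField_charP hA hv
  obtain ⟨ζ, hζ⟩ := HasEnoughRootsOfUnity.exists_primitiveRoot QBar v
  obtain ⟨a, ha⟩ := IsCyclic.exists_generator (α := (ZMod v)ˣ)
  have hord : orderOf a = v - 1 := by
    rw [orderOf_eq_card_of_forall_mem_zpowers ha, Nat.card_eq_fintype_card, ZMod.card_units]
  set n := (a : ZMod v).val with hn
  have hcop : n.Coprime v := by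
    rw [hn]; exact (ZMod.val_coe_unit_coprime a)
  -- an inertia element acting on the `v`-th roots of unity by a generator `a`
  obtain ⟨σ, hσ, hσζ⟩ := Mazur.Eisenstein.exists_inertia_apply hA hv (m := 0) (ζ := ζ) (η := ζ ^ n)
    (by simpa using hζ) (by simpa using hζ.pow_of_coprime n hcop)
  have hμ : ∀ μ : QBar, μ ^ v = 1 → σ μ = μ ^ n := fun μ hμ => by
    obtain ⟨i, -, rfl⟩ := hζ.eq_pow_of_pow_eq_one hμ
    rw [map_pow, hσζ, pow_right_comm]
  set e := (v - 1) / p with he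
  have hz1 : (1 : QBar) - ζ ≠ 0 := sub_ne_zero.mpr (hζ.ne_one hv.one_lt).symm
  -- take `π = (1 - ζ) ^ e`, of order `1 / p`
  refine ⟨σ, a, (1 - ζ) ^ e, 1, hσ, hμ, hord, pow_ne_zero e hz1, ?_, ?_⟩
  · have h := Mazur.Eisenstein.ordAt_one_sub hA hv (m := 0) (ζ := ζ) (by simpa using hζ)
    rw [pow_one, Nat.totient_prime hv] at h
    rw [Mazur.Eisenstein.ordAt_pow hA hv hz1]
    obtain ⟨t, ht⟩ := hpv
    have het : e = t := by rw [he, ht, Nat.mul_div_cancel_left _ hp.pos]
    rw [ht, Nat.cast_mul] at h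
    rw [het, Int.cast_one, eq_div_iff (Nat.cast_ne_zero.mpr hp.ne_zero : (p : ℚ) ≠ 0)]
    linear_combination h
  -- `σ π / π` reduces to `a ^ e`, as `(1 - ζ ^ n) / (1 - ζ) ≡ n`
  · have hres : res A (σ ((1 - ζ) ^ e) / (1 - ζ) ^ e) =
        ((n : ℕ) : IsLocalRing.ResidueField A) ^ e := by
      rw [map_pow, ← div_pow, map_sub, map_one, hσζ,
        res_pow (Mazur.Eisenstein.one_sub_pow_mem (Mazur.Eisenstein.primitive_mem hv.pos hζ) n
          (hζ.ne_one hv.one_lt))]
      congr 1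
      have hζA : ζ ∈ A := Mazur.Eisenstein.primitive_mem hv.pos hζ
      rw [show (1 - ζ ^ n) / (1 - ζ) = ∑ i ∈ Finset.range n, ζ ^ i by
        rw [div_eq_iff hz1, geom_sum_mul_neg]]
      have hr1 : res A ζ = 1 := by
        have hpow : res A ζ ^ v = 1 := by rw [← res_pow hζA, hζ.pow_eq_one, res_one]
        have : (res A ζ - 1) ^ v = 0 := by rw [sub_pow_char, hpow, one_pow, sub_self]
        exact sub_eq_zero.mp ((pow_eq_zero_iff hv.ne_zero).mp this)
      have key : ∀ k, res A (∑ i ∈ Finset.range k, ζ ^ i) = (k : IsLocalRing.ResidueField A) := by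
        intro k
        induction k with
        | zero => simp
        | succ k ih =>
          rw [Finset.sum_range_succ, res_add (sum_mem fun i _ => pow_mem hζA i) (pow_mem hζA k),
            ih, res_pow hζA, hr1, one_pow, Nat.cast_succ]
      exact key n
    let ψ : ZMod v →+* IsLocalRing.ResidueField A := ZMod.castHom dvd_rfl _
    have hψ : ((n : ℕ) : IsLocalRing.ResidueField A) = ψ (a : ZMod v) := by
      rw [← map_natCast ψ, hn, ZMod.natCast_zmod_val]
    rw [hres, hψ, ← map_pow, ← Units.val_pow_eq_pow_val]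
    -- `a ^ e` has order exactly `p`, as `a` has order `v - 1`
    constructor
    · intro h1
      have h2 : a ^ e = 1 := Units.ext (ψ.injective (by rw [h1, Units.val_one, map_one]))
      have h3 := orderOf_dvd_of_pow_eq_one h2
      rw [hord] at h3
      have hpos : 0 < v - 1 := by have := hv.two_le; omega
      have hlt : e < v - 1 := Nat.div_lt_self hpos hp.one_lt
      have he0 : 0 < e := Nat.div_pos (Nat.le_of_dvd hpos hpv) hp.pos
      exact absurd (Nat.le_of_dvd he0 h3) (not_le.mpr hlt)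
    · rw [← map_pow, ← Units.val_pow_eq_pow_val, ← pow_mul, he, Nat.div_mul_cancel hpv, ← hord,
        pow_orderOf_eq_one, Units.val_one, map_one]

end Fermat.Agent.RT.Assembly
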